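import Fermat.Agent.S36.Core.Defs
import Fermat.Agent.S34.EvP
import Fermat.Agent.S34.FFSup
import Fermat.Agent.S34.MulX

/-!
# S36, ABSTRACT CORE, (BD): API of `Bd`, `ceilDiv`, `EE` (pure function field)
-/

set_option autoImplicit false

open AlgebraicCurve IntermediateField Polynomial Fermat.Agent.S24Lib Fermat.Agent.FFLib
  Fermat.Agent.S18Lib Fermat.Agent.S34Lib

namespace Fermat.Agent.S36Lib

/-! ## (BD) `S36/Core/Bd.lean` : API of `Bd`, `ceilDiv`, `EE` (pure function field) -/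
section BD

variable {k κ : Type*} [Field k] [Field κ] [Algebra k κ]

theorem ceilDiv_apply (N : ℕ) (W : Divisor k κ) (P : Place k κ) :
    ceilDiv N W P = -((-(W P)) / (N : ℤ)) := by
  unfold ceilDiv
  rw [Finsupp.mapRange_apply]

/-- `⌈w / N⌉ ≤ z ↔ w ≤ N z` -/
theorem ceilDiv_le_iff {N : ℕ} (hN : 0 < N) (W : Divisor k κ) (P : Place k κ) (z : ℤ) :
    ceilDiv N W P ≤ z ↔ W P ≤ N * z := by
  have hN' : (0 : ℤ) < N := by exact_mod_cast hN
  rw [ceilDiv_apply, neg_le, Int.le_ediv_iff_mul_le hN']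
  constructor <;> intro h <;> nlinarith

theorem mem_L_EE_iff {N : ℕ} (hN : 0 < N) (y : κ) (a b : ℕ) (W : Divisor k κ) (u : κ) :
    u ∈ riemannRochSpace (EE k y a b N W) ↔ Bd k y a b N W u := by
  rw [mem_L_iff]
  unfold Bd D2_ge
  by_cases hu : u = 0
  · simp [hu]
  simp only [hu, false_or]
  refine forall_congr' fun P => ?_
  rw [← ceilDiv_le_iff hN, EE, Finsupp.sub_apply]
  constructor <;> intro h <;> omega

theorem degree_ceilDiv [IsAlgClosed k] (h : IsFF k κ) {N : ℕ} (hN : 0 < N) (W : Divisor k κ) :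
    Divisor.degree W ≤ N * Divisor.degree (ceilDiv N W) := by
  have h1 : (0 : Divisor k κ) ≤ N • ceilDiv N W - W := by
    intro P
    rw [Finsupp.sub_apply, Finsupp.smul_apply, nsmul_eq_mul]
    have := (ceilDiv_le_iff hN W P (ceilDiv N W P)).mp le_rfl
    simp only [Finsupp.coe_zero, Pi.zero_apply]
    omega
  have h2 := dg_degree_nonneg h h1
  rw [map_sub, map_nsmul, nsmul_eq_mul] at h2
  omega

theorem degree_EE [IsAlgClosed k] (h : IsFF k κ) {y : κ} (hy : Transcendental k y) (a b N : ℕ)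
    (W : Divisor k κ) :
    Divisor.degree (EE k y a b N W) =
      ((a : ℤ) + b) * Module.finrank k⟮y⟯ κ - Divisor.degree (ceilDiv N W) := by
  rw [EE, map_sub, maE_degree h hy]

/-- `m`-th roots -/
theorem Bd.of_pow [IsAlgClosed k] (h : IsFF k κ) {y : κ} {a b N m : ℕ} (hm : 0 < m)
    {W : Divisor k κ} {u : κ} (hu : Bd k y (m * a) (m * b) N ((m : ℤ) • W) (u ^ m)) :
    Bd k y a b N W u := by
  rcases hu with hu | hu
  · left
    exact pow_eq_zero_iff hm.ne' |>.mp hu
  · right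
    intro P
    have h1 := hu P
    rw [Finsupp.smul_apply, smul_eq_mul, maE_apply h, pl_ord_pow] at h1
    rw [maE_apply h]
    have hm' : (0 : ℤ) < m := by exact_mod_cast hm
    push_cast at h1
    have h2 : (m : ℤ) * W P ≤ m * (N * (P.ord u + (a * max (-P.ord y) 0 + b * max (P.ord y) 0))) := by
      calc (m : ℤ) * W P ≤ _ := h1
        _ = _ := by ring
    exact le_of_mul_le_mul_left h2 hm'

/-- multiplication by `y ^ b` -/
theorem Bd.mul_pow_iff [IsAlgClosed k] (h : IsFF k κ) {y : κ} (hy : y ≠ 0) (a b N : ℕ)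
    (W : Divisor k κ) (u : κ) :
    Bd k y (a + b) 0 N W (y ^ b * u) ↔ Bd k y a b N W u := by
  unfold Bd
  by_cases hu : u = 0
  · simp [hu]
  have hyu : y ^ b * u ≠ 0 := mul_ne_zero (pow_ne_zero _ hy) hu
  simp only [hu, hyu, false_or]
  refine forall_congr' fun P => ?_
  rw [maE_apply h, maE_apply h, P.ord_mul (pow_ne_zero _ hy) hu, pl_ord_pow]
  have e : (b : ℤ) * P.ord y + P.ord u + (((a + b : ℕ) : ℤ) * max (-P.ord y) 0
      + ((0 : ℕ) : ℤ) * max (P.ord y) 0)
      = P.ord u + ((a : ℤ) * max (-P.ord y) 0 + b * max (P.ord y) 0) := by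
    push_cast
    rcases le_total 0 (P.ord y) with ho | ho
    · rw [max_eq_right (a := -P.ord y) (by omega), max_eq_left ho]
      ring
    · rw [max_eq_left (a := -P.ord y) (by omega), max_eq_right ho]
      ring
  rw [e]

theorem BD_min_mul (b b' : ℕ) {o : ℤ} (ho : 0 ≤ o) :
    min ((b : ℤ) * o) ((b' : ℤ) * o) = ((min b b' : ℕ) : ℤ) * o := by
  rcases le_total b b' with hb | hb
  · rw [min_eq_left hb, min_eq_left]
    exact mul_le_mul_of_nonneg_right (by exact_mod_cast hb) ho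
  · rw [min_eq_right hb, min_eq_right]
    exact mul_le_mul_of_nonneg_right (by exact_mod_cast hb) ho

theorem EE_inf [IsAlgClosed k] (h : IsFF k κ) (y : κ) (a b a' b' N : ℕ) (W : Divisor k κ) :
    riemannRochSpace (EE k y a b N W) ⊓ riemannRochSpace (EE k y a' b' N W) =
      riemannRochSpace (EE k y (min a a') (min b b') N W) := by
  rw [L_inf_eq]
  congr 1
  ext P
  rw [Finsupp.inf_apply, EE, EE, EE, Finsupp.sub_apply, Finsupp.sub_apply, Finsupp.sub_apply,
    maE_apply h, maE_apply h, maE_apply h, min_sub_sub_right]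
  congr 1
  rcases le_total 0 (P.ord y) with ho | ho
  · rw [max_eq_right (a := -P.ord y) (by omega), max_eq_left ho]
    simp only [mul_zero, zero_add]
    exact BD_min_mul b b' ho
  · rw [max_eq_left (a := -P.ord y) (by omega), max_eq_right ho]
    simp only [mul_zero, add_zero]
    exact BD_min_mul a a' (by omega)

theorem EE_mono [IsAlgClosed k] (h : IsFF k κ) (y : κ) {a b a' b' : ℕ} (ha : a ≤ a')
    (hb : b ≤ b') (N : ℕ) (W : Divisor k κ) :
    riemannRochSpace (EE k y a b N W) ≤ riemannRochSpace (EE k y a' b' N W) := by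
  apply L_mono
  intro P
  rw [EE, EE, Finsupp.sub_apply, Finsupp.sub_apply, maE_apply h, maE_apply h]
  have h1 : (a : ℤ) * max (-P.ord y) 0 ≤ a' * max (-P.ord y) 0 :=
    mul_le_mul_of_nonneg_right (by exact_mod_cast ha) (le_max_right _ _)
  have h2 : (b : ℤ) * max (P.ord y) 0 ≤ b' * max (P.ord y) 0 :=
    mul_le_mul_of_nonneg_right (by exact_mod_cast hb) (le_max_right _ _)
  omega

theorem BD_exists_bound {N : ℕ} (hN : 0 < N) (W : Divisor k κ) (u : κ) (g : Place k κ → ℤ)
    (hg0 : ∀ P, 0 ≤ g P) (hfin : {P : Place k κ | g P ≠ 0}.Finite)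
    (hu : ∀ P : Place k κ, g P = 0 → u = 0 ∨ W P ≤ N * P.ord u) :
    ∃ n₁ : ℕ, ∀ n : ℕ, n₁ ≤ n → u = 0 ∨ ∀ P : Place k κ, W P ≤ N * (P.ord u + n * g P) := by
  classical
  refine ⟨∑ P ∈ hfin.toFinset, ((W P).natAbs + (P.ord u).natAbs), fun n hn => ?_⟩
  by_cases hu0 : u = 0
  · exact Or.inl hu0
  right
  intro P
  by_cases hP : g P = 0
  · rw [hP, mul_zero, add_zero]
    exact (hu P hP).resolve_left hu0
  · have hmem : P ∈ hfin.toFinset := by simpa using hP
    have h1 : (W P).natAbs + (P.ord u).natAbs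
        ≤ ∑ P ∈ hfin.toFinset, ((W P).natAbs + (P.ord u).natAbs) :=
      Finset.single_le_sum (f := fun P => (W P).natAbs + (P.ord u).natAbs)
        (fun _ _ => Nat.zero_le _) hmem
    have h2 : (W P).natAbs + (P.ord u).natAbs ≤ n := h1.trans hn
    have hg1 : 1 ≤ g P := by
      have := hg0 P
      omega
    have h3 : (n : ℤ) ≤ n * g P := by nlinarith
    have h4 : |W P| + |P.ord u| ≤ (n : ℤ) := by
      rw [Int.abs_eq_natAbs, Int.abs_eq_natAbs]
      exact_mod_cast h2
    have h5 : |W P| ≤ P.ord u + n * g P := by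
      have := neg_abs_le (P.ord u)
      omega
    have hN' : (1 : ℤ) ≤ N := by exact_mod_cast hN
    have h6 : W P ≤ |W P| := le_abs_self _
    have h7 : 0 ≤ |W P| := abs_nonneg _
    nlinarith

/-- local conditions on the chart `y ≠ ∞` -/
theorem exists_mem_EE_pos [IsAlgClosed k] (h : IsFF k κ) {y : κ} (hy : Transcendental k y)
    {N : ℕ} (hN : 0 < N) (W : Divisor k κ) (u : κ)
    (hu : ∀ P : Place k κ, 0 ≤ P.ord y → u = 0 ∨ W P ≤ N * P.ord u) :
    ∃ n₁ : ℕ, ∀ n, n₁ ≤ n → u ∈ riemannRochSpace (EE k y n 0 N W) := by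
  obtain ⟨n₁, hn₁⟩ := BD_exists_bound hN W u (fun P => max (-P.ord y) 0)
    (fun P => le_max_right _ _)
    ((finite_ord_ne_zero h y).subset (by
      intro P hP
      simp only [Set.mem_ofPred_eq] at hP ⊢
      intro h0
      apply hP
      rw [h0]
      simp))
    (fun P hP => hu P (by
      have : -P.ord y ≤ max (-P.ord y) 0 := le_max_left _ _
      omega))
  refine ⟨n₁, fun n hn => ?_⟩
  rw [mem_L_EE_iff hN]
  rcases hn₁ n hn with h0 | h1
  · exact Or.inl h0
  · right
    intro P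
    rw [maE_apply h]
    simpa using h1 P

/-- local conditions on the chart `y ≠ 0` -/
theorem exists_mem_EE_neg [IsAlgClosed k] (h : IsFF k κ) {y : κ} (hy : Transcendental k y)
    {N : ℕ} (hN : 0 < N) (W : Divisor k κ) (u : κ)
    (hu : ∀ P : Place k κ, P.ord y ≤ 0 → u = 0 ∨ W P ≤ N * P.ord u) :
    ∃ n₁ : ℕ, ∀ n, n₁ ≤ n → u ∈ riemannRochSpace (EE k y 0 n N W) := by
  obtain ⟨n₁, hn₁⟩ := BD_exists_bound hN W u (fun P => max (P.ord y) 0)
    (fun P => le_max_right _ _)
    ((finite_ord_ne_zero h y).subset (by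
      intro P hP
      simp only [Set.mem_ofPred_eq] at hP ⊢
      intro h0
      apply hP
      rw [h0]
      simp))
    (fun P hP => hu P (by
      have : P.ord y ≤ max (P.ord y) 0 := le_max_left _ _
      omega))
  refine ⟨n₁, fun n hn => ?_⟩
  rw [mem_L_EE_iff hN]
  rcases hn₁ n hn with h0 | h1
  · exact Or.inl h0
  · right
    intro P
    rw [maE_apply h]
    simpa using h1 P

/-- `ord_P (w ^ m - 1) = ord_P (w - 1)` if `w(P) = 1` and `m ≠ 0` in `k` -/
theorem ord_pow_sub_one [IsAlgClosed k] (h : IsFF k κ) (P : Place k κ) {w : κ} (hw : D2_ge P 0 w)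
    (hw1 : evP P w = 1) {m : ℕ} (hm : (m : k) ≠ 0) (n : ℤ) :
    D2_ge P n (w ^ m - 1) → D2_ge P n (w - 1) := by
  intro hn
  by_cases hw0 : w - 1 = 0
  · exact Or.inl hw0
  set G := ∑ i ∈ Finset.range m, w ^ i with hG
  have hGm : G * (w - 1) = w ^ m - 1 := geom_sum_mul w m
  obtain ⟨hG0, hGe⟩ := sup_evP_sum h P (Finset.range m) (fun i => w ^ i)
    (fun i _ => ev_ge_pow P hw i)
  have hGe' : evP P G = (m : k) := by
    rw [hG, hGe]
    have : ∀ i ∈ Finset.range m, evP P (w ^ i) = 1 := by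
      intro i _
      rw [evP_pow h P hw, hw1, one_pow]
    rw [Finset.sum_congr rfl this]
    simp
  have hG1 : ¬ D2_ge P 1 G := by
    intro h1
    apply hm
    rw [← hGe']
    exact (evP_eq_zero_iff h P hG0).mpr h1
  have hGne : G ≠ 0 := fun h0 => hG1 (Or.inl h0)
  have hGord : P.ord G = 0 := by
    have h1 : 0 ≤ P.ord G := hG0.resolve_left hGne
    have h2 : ¬ 1 ≤ P.ord G := fun h2 => hG1 (Or.inr h2)
    omega
  right
  rw [← hGm] at hn
  have h3 := hn.resolve_left (mul_ne_zero hGne hw0)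
  rw [P.ord_mul hGne hw0, hGord, zero_add] at h3
  exact h3

end BD

end Fermat.Agent.S36Lib
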