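import Fermat.Agent.S36.Core.Defs
import Fermat.Agent.S34.EvP
import Fermat.Agent.S34.FFSup
import Fermat.Agent.S34.MulX

/-!
# S36, ABSTRACT CORE, (DV): API of `DVal`
-/

set_option autoImplicit false

open AlgebraicCurve IntermediateField Polynomial Fermat.Agent.S24Lib Fermat.Agent.FFLib
  Fermat.Agent.S18Lib Fermat.Agent.S34Lib

namespace Fermat.Agent.S36Lib

/-! ## (DV) `S36/Core/DVal.lean` : API of `DVal` -/
section DV

variable {F₀ κ : Type*} [Field F₀] [Field κ] (v : DVal F₀ κ)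

theorem DVal.ge_zero_iff (x : F₀) : v.ge 0 x ↔ x ∈ v.O := by
  unfold DVal.ge
  rw [pow_zero, mul_one]

theorem DVal.ge_succ {n : ℕ} {x : F₀} (h : v.ge (n + 1) x) : v.ge n x := by
  unfold DVal.ge at *
  have h1 := v.O.mul_mem h v.π_mem
  have h2 : x * v.π⁻¹ ^ (n + 1) * v.π = x * v.π⁻¹ ^ n := by
    rw [pow_succ, mul_assoc, mul_assoc, inv_mul_cancel₀ v.π_ne, mul_one]
  rwa [h2] at h1

theorem DVal.ge_mono {n m : ℕ} (hmn : m ≤ n) {x : F₀} (h : v.ge n x) : v.ge m x := by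
  induction n, hmn using Nat.le_induction with
  | base => exact h
  | succ n _ ih => exact ih (v.ge_succ h)

theorem DVal.ge_neg {n : ℕ} {x : F₀} (hx : v.ge n x) : v.ge n (-x) := by
  unfold DVal.ge at *
  rw [neg_mul]
  exact v.O.neg_mem hx

theorem DVal.ge_sub {n : ℕ} {x y : F₀} (hx : v.ge n x) (hy : v.ge n y) : v.ge n (x - y) := by
  unfold DVal.ge at *
  rw [sub_mul]
  exact v.O.sub_mem hx hy

theorem DVal.ge_mul {n m : ℕ} {x y : F₀} (hx : v.ge n x) (hy : v.ge m y) :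
    v.ge (n + m) (x * y) := by
  unfold DVal.ge at *
  have h1 := v.O.mul_mem hx hy
  have h2 : x * v.π⁻¹ ^ n * (y * v.π⁻¹ ^ m) = x * y * v.π⁻¹ ^ (n + m) := by
    rw [pow_add]; ring
  rwa [h2] at h1

theorem DVal.ge_pow {n : ℕ} {x : F₀} (hx : v.ge n x) (r : ℕ) : v.ge (r * n) (x ^ r) := by
  unfold DVal.ge at *
  have h1 := v.O.pow_mem hx r
  have h2 : (x * v.π⁻¹ ^ n) ^ r = x ^ r * v.π⁻¹ ^ (r * n) := by
    rw [mul_pow, ← pow_mul, mul_comm n r]
  rwa [h2] at h1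

theorem DVal.lead_of_ge {n : ℕ} {x : F₀} (h : v.ge n x) :
    v.lead n x = v.red ⟨x * v.π⁻¹ ^ n, h⟩ := by
  unfold DVal.lead
  rw [dif_pos h]

theorem DVal.lead_zero_eq {x : F₀} (h : x ∈ v.O) : v.lead 0 x = v.red ⟨x, h⟩ := by
  rw [v.lead_of_ge ((v.ge_zero_iff x).mpr h)]
  congr 1
  apply Subtype.ext
  show x * v.π⁻¹ ^ 0 = x
  rw [pow_zero, mul_one]

theorem DVal.lead_one : v.lead 0 1 = 1 := by
  rw [v.lead_zero_eq v.O.one_mem]
  exact map_one v.red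

theorem DVal.lead_add {n : ℕ} {x y : F₀} (hx : v.ge n x) (hy : v.ge n y) :
    v.lead n (x + y) = v.lead n x + v.lead n y := by
  rw [v.lead_of_ge hx, v.lead_of_ge hy, v.lead_of_ge (v.ge_add hx hy), ← map_add]
  congr 1
  apply Subtype.ext
  exact add_mul _ _ _

theorem DVal.lead_neg (n : ℕ) (x : F₀) : v.lead n (-x) = -v.lead n x := by
  by_cases hx : v.ge n x
  · rw [v.lead_of_ge hx, v.lead_of_ge (v.ge_neg hx), ← map_neg]
    congr 1
    apply Subtype.ext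
    exact neg_mul _ _
  · have hx' : ¬ v.ge n (-x) := fun h => hx (by simpa using v.ge_neg h)
    unfold DVal.lead
    rw [dif_neg hx, dif_neg hx', neg_zero]

theorem DVal.lead_sub {n : ℕ} {x y : F₀} (hx : v.ge n x) (hy : v.ge n y) :
    v.lead n (x - y) = v.lead n x - v.lead n y := by
  rw [sub_eq_add_neg, v.lead_add hx (v.ge_neg hy), v.lead_neg, sub_eq_add_neg]

theorem DVal.lead_mul {n m : ℕ} {x y : F₀} (hx : v.ge n x) (hy : v.ge m y) :
    v.lead (n + m) (x * y) = v.lead n x * v.lead m y := by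
  rw [v.lead_of_ge hx, v.lead_of_ge hy, v.lead_of_ge (v.ge_mul hx hy), ← map_mul]
  congr 1
  apply Subtype.ext
  show x * y * v.π⁻¹ ^ (n + m) = x * v.π⁻¹ ^ n * (y * v.π⁻¹ ^ m)
  rw [pow_add]; ring

theorem DVal.lead_pow {n : ℕ} {x : F₀} (hx : v.ge n x) (r : ℕ) :
    v.lead (r * n) (x ^ r) = v.lead n x ^ r := by
  rw [v.lead_of_ge hx, v.lead_of_ge (v.ge_pow hx r), ← map_pow]
  congr 1
  apply Subtype.ext
  show x ^ r * v.π⁻¹ ^ (r * n) = (x * v.π⁻¹ ^ n) ^ r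
  rw [mul_pow, ← pow_mul, mul_comm n r]

theorem DVal.lead_eq_zero_iff {n : ℕ} {x : F₀} (hx : v.ge n x) :
    v.lead n x = 0 ↔ v.ge (n + 1) x := by
  rw [v.lead_of_ge hx, v.red_eq_zero_iff]
  unfold DVal.ge
  rw [pow_succ, mul_assoc]

end DV

end Fermat.Agent.S36Lib
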