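import Fermat.Agent.S36.Core.Defs
import Fermat.Agent.S36.Core.DVal

/-!
# S36, ABSTRACT CORE, (FL): the chain
-/

set_option autoImplicit false

open AlgebraicCurve IntermediateField Polynomial Fermat.Agent.S24Lib Fermat.Agent.FFLib
  Fermat.Agent.S18Lib Fermat.Agent.S34Lib

namespace Fermat.Agent.S36Lib

variable {K₀ k : Type*} [Field K₀] [Field k] {A₀ : ValuationSubring K₀} {resK : A₀ →+* k}
  {K F₀ F κ Φ : Type*} [Field K] [Field F₀] [Field F] [Field κ] [Algebra K₀ F₀] [Algebra K F]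
  [Algebra k κ] [CommRing Φ] [Algebra k Φ]

section FL

variable (C : Core3 A₀ resK K F₀ F κ Φ)

theorem Core3.Fge_zero_iff (x : F₀) : C.Fge 0 x ↔ x ∈ C.R.O := by
  rw [C.mem_O]
  unfold Core3.Fge
  simp only [Nat.zero_min, Nat.zero_sub, DVal.ge_zero_iff]

theorem Core3.FL_Fge_mono {t t' : ℕ} (h : t ≤ t') {x : F₀} (hx : C.Fge t' x) : C.Fge t x :=
  ⟨C.v₁.ge_mono (by omega) hx.1, C.v₂.ge_mono (by omega) hx.2.1, C.v₃.ge_mono (by omega) hx.2.2⟩

theorem Core3.Fge_succ {t : ℕ} {x : F₀} (h : C.Fge (t + 1) x) : C.Fge t x :=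
  C.FL_Fge_mono (Nat.le_succ t) h

theorem Core3.Fge_mem_O {t : ℕ} {x : F₀} (h : C.Fge t x) : x ∈ C.R.O :=
  (C.Fge_zero_iff x).1 (C.FL_Fge_mono (Nat.zero_le t) h)

theorem Core3.Fge_sub {t : ℕ} {x y : F₀} (hx : C.Fge t x) (hy : C.Fge t y) :
    C.Fge t (x - y) :=
  ⟨C.v₁.ge_sub hx.1 hy.1, C.v₂.ge_sub hx.2.1 hy.2.1, C.v₃.ge_sub hx.2.2 hy.2.2⟩

/-- the last term of the chain is `𝔪 O` -/
theorem Core3.Fge_top_iff (x : C.R.O) : C.Fge (C.e + 2) (x : F₀) ↔ C.R.red x = 0 := by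
  rw [C.red_eq_zero]
  unfold Core3.Fge
  have h1 : min (C.e + 2) 1 = 1 := by omega
  have h2 : C.e + 2 - 2 = C.e := by omega
  have h3 : min (C.e + 2 - 1) 1 = 1 := by omega
  rw [h1, h2, h3]

theorem Core3.FL_ld_zero (x : F₀) : C.ld 0 x = C.v₁.lead 0 x := by
  unfold Core3.ld
  rw [if_pos rfl]

theorem Core3.FL_ld_one (x : F₀) : C.ld 1 x = C.v₃.lead 0 x := by
  unfold Core3.ld
  rw [if_neg one_ne_zero, if_pos rfl]

theorem Core3.FL_ld_add_two (t : ℕ) (x : F₀) : C.ld (t + 2) x = C.v₂.lead t x := by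
  unfold Core3.ld
  rw [if_neg (by omega), if_neg (by omega), Nat.add_sub_cancel]

theorem Core3.ld_add {t : ℕ} {x y : F₀} (hx : C.Fge t x) (hy : C.Fge t y) :
    C.ld t (x + y) = C.ld t x + C.ld t y := by
  rcases t with _ | _ | t
  · simp only [C.FL_ld_zero]
    exact C.v₁.lead_add hx.1 hy.1
  · simp only [zero_add, C.FL_ld_one]
    exact C.v₃.lead_add hx.2.2 hy.2.2
  · simp only [C.FL_ld_add_two]
    exact C.v₂.lead_add hx.2.1 hy.2.1

theorem Core3.ld_sub {t : ℕ} {x y : F₀} (hx : C.Fge t x) (hy : C.Fge t y) :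
    C.ld t (x - y) = C.ld t x - C.ld t y := by
  rcases t with _ | _ | t
  · simp only [C.FL_ld_zero]
    exact C.v₁.lead_sub hx.1 hy.1
  · simp only [zero_add, C.FL_ld_one]
    exact C.v₃.lead_sub hx.2.2 hy.2.2
  · simp only [C.FL_ld_add_two]
    exact C.v₂.lead_sub hx.2.1 hy.2.1

theorem Core3.ld_const_mul {t : ℕ} (c : A₀) {x : F₀} (hx : C.Fge t x) :
    C.ld t (algebraMap K₀ F₀ (c : K₀) * x) = resK c • C.ld t x := by
  have hc : algebraMap K₀ F₀ (c : K₀) ∈ C.R.O := (C.R.algebraMap_mem_iff _).2 c.2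
  have hc' := (C.mem_O _).1 hc
  rw [Algebra.smul_def]
  rcases t with _ | _ | t
  · simp only [C.FL_ld_zero]
    have h := C.v₁.lead_mul (n := 0) (m := 0) ((C.v₁.ge_zero_iff _).2 hc'.1) hx.1
    rw [add_zero] at h
    rw [h, C.v₁.lead_zero_eq hc'.1, C.const₁]
  · simp only [zero_add, C.FL_ld_one]
    have h := C.v₃.lead_mul (n := 0) (m := 0) ((C.v₃.ge_zero_iff _).2 hc'.2.2) hx.2.2
    rw [add_zero] at h
    rw [h, C.v₃.lead_zero_eq hc'.2.2, C.const₃]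
  · simp only [C.FL_ld_add_two]
    have h := C.v₂.lead_mul (n := 0) (m := t) ((C.v₂.ge_zero_iff _).2 hc'.2.1) hx.2.1
    rw [zero_add] at h
    rw [h, C.v₂.lead_zero_eq hc'.2.1, C.const₂]

theorem Core3.ld_eq_zero_iff {t : ℕ} (ht : t < C.e + 2) {x : F₀} (hx : C.Fge t x) :
    C.ld t x = 0 ↔ C.Fge (t + 1) x := by
  rcases t with _ | _ | t
  · have h1 : C.v₁.ge 0 x := hx.1
    rw [C.FL_ld_zero, C.v₁.lead_eq_zero_iff h1]
    exact ⟨fun h => ⟨h, hx.2.1, hx.2.2⟩, fun h => h.1⟩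
  · have h1 : C.v₃.ge 0 x := hx.2.2
    rw [zero_add, C.FL_ld_one, C.v₃.lead_eq_zero_iff h1]
    exact ⟨fun h => ⟨hx.1, hx.2.1, h⟩, fun h => h.2.2⟩
  · have h1 : C.v₂.ge t x := hx.2.1
    rw [C.FL_ld_add_two, C.v₂.lead_eq_zero_iff h1]
    have e1 : min (t + 1 + 1 + 1) 1 = min (t + 1 + 1) 1 := by omega
    have e3 : min (t + 1 + 1 + 1 - 1) 1 = min (t + 1 + 1 - 1) 1 := by omega
    refine ⟨fun h => ⟨?_, h, ?_⟩, fun h => h.2.1⟩
    · rw [e1]; exact hx.1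
    · rw [e3]; exact hx.2.2

/-- two lifts in `O(a_t)` of the same element have the same leading term -/
theorem Core3.FL_ld_congr {t : ℕ} (ht : t < C.e + 2) (x y : C.R.O) (hxy : C.R.red x = C.R.red y)
    (hx : C.Fge t (x : F₀)) (hy : C.Fge t (y : F₀)) : C.ld t (x : F₀) = C.ld t (y : F₀) := by
  have h0 : C.R.red (x - y) = 0 := by rw [map_sub, hxy, sub_self]
  have h1 : C.Fge (C.e + 2) ((x : F₀) - (y : F₀)) := (C.Fge_top_iff (x - y)).2 h0
  have h2 : C.Fge (t + 1) ((x : F₀) - (y : F₀)) := C.FL_Fge_mono (by omega) h1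
  have h3 := (C.ld_eq_zero_iff ht (C.Fge_sub hx hy)).2 h2
  rw [C.ld_sub hx hy, sub_eq_zero] at h3
  exact h3

/-- the leading term as a linear map on `red (U ∩ O(a_t))` with kernel `red (U ∩ O(a_{t+1}))` -/
theorem Core3.exists_ldMap (hres : Function.Surjective resK) (U : Submodule K₀ F₀) {t : ℕ}
    (ht : t < C.e + 2) :
    ∃ lam : C.VF hres U t →ₗ[k] κ,
      (∀ (x : C.R.O) (h : C.R.red x ∈ C.VF hres U t), C.Fge t (x : F₀) →
        lam ⟨C.R.red x, h⟩ = C.ld t (x : F₀)) ∧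
      ∀ φ : C.VF hres U t, lam φ = 0 ↔ (φ : Φ) ∈ C.VF hres U (t + 1) := by
  classical
  let lift : C.VF hres U t → C.R.O := fun φ => φ.2.choose
  have hlU : ∀ φ, ((lift φ : C.R.O) : F₀) ∈ U := fun φ => φ.2.choose_spec.1
  have hlF : ∀ φ, C.Fge t ((lift φ : C.R.O) : F₀) := fun φ => φ.2.choose_spec.2.1
  have hlr : ∀ φ, C.R.red (lift φ) = (φ : Φ) := fun φ => φ.2.choose_spec.2.2
  have key : ∀ (φ : C.VF hres U t) (x : C.R.O), C.R.red x = (φ : Φ) → C.Fge t (x : F₀) →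
      C.ld t ((lift φ : C.R.O) : F₀) = C.ld t (x : F₀) := by
    intro φ x hx hxF
    exact C.FL_ld_congr ht _ _ ((hlr φ).trans hx.symm) (hlF φ) hxF
  let lam : C.VF hres U t →ₗ[k] κ :=
    { toFun := fun φ => C.ld t ((lift φ : C.R.O) : F₀)
      map_add' := by
        intro φ ψ
        have h := key (φ + ψ) (lift φ + lift ψ) (by rw [map_add, hlr, hlr]; rfl)
          (C.Fge_add (hlF φ) (hlF ψ))
        rw [h]
        exact C.ld_add (hlF φ) (hlF ψ)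
      map_smul' := by
        intro c φ
        obtain ⟨c', rfl⟩ := hres c
        have h := key (resK c' • φ) (C.R.const c' * lift φ)
          (by rw [map_mul, C.R.red_const, hlr, ← Algebra.smul_def]; rfl)
          (C.Fge_mul_left (C.R.const c').2 (hlF φ))
        rw [h]
        exact C.ld_const_mul c' (hlF φ) }
  refine ⟨lam, ?_, ?_⟩
  · intro x h hx
    exact key ⟨C.R.red x, h⟩ x rfl hx
  · intro φ
    constructor
    · intro h0
      have h1 : C.ld t ((lift φ : C.R.O) : F₀) = 0 := h0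
      exact ⟨lift φ, hlU φ, (C.ld_eq_zero_iff ht (hlF φ)).1 h1, hlr φ⟩
    · rintro ⟨x, -, hxF, hxr⟩
      have h1 := key φ x hxr (C.Fge_succ hxF)
      show C.ld t ((lift φ : C.R.O) : F₀) = 0
      rw [h1]
      exact (C.ld_eq_zero_iff ht (C.Fge_succ hxF)).2 hxF

/-- if `red x ∈ red (U ∩ O(a_t))` then `x ∈ O(a_t)` -/
theorem Core3.Fge_of_red_mem (hres : Function.Surjective resK) (U : Submodule K₀ F₀) {t : ℕ}
    (ht : t ≤ C.e + 2) (x : C.R.O) (h : C.R.red x ∈ C.VF hres U t) : C.Fge t (x : F₀) := by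
  obtain ⟨y, -, hyF, hyr⟩ := h
  have h0 : C.R.red (x - y) = 0 := by rw [map_sub, hyr, sub_self]
  have h1 : C.Fge (C.e + 2) ((x : F₀) - (y : F₀)) := (C.Fge_top_iff (x - y)).2 h0
  have h2 := C.Fge_add (C.FL_Fge_mono ht h1) hyF
  rwa [sub_add_cancel] at h2

end FL

end Fermat.Agent.S36Lib
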