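import Fermat.Agent.S36.Core.Defs
import Fermat.Agent.S34.EvP
import Fermat.Agent.S34.FFSup
import Fermat.Agent.S34.MulX

/-!
# S36, ABSTRACT CORE, (UU): API of `U_D(a,b)`
-/

set_option autoImplicit false

open AlgebraicCurve IntermediateField Polynomial Fermat.Agent.S24Lib Fermat.Agent.FFLib
  Fermat.Agent.S18Lib Fermat.Agent.S34Lib

namespace Fermat.Agent.S36Lib

variable {K₀ k : Type*} [Field K₀] [Field k] {A₀ : ValuationSubring K₀} {resK : A₀ →+* k}
  {K F₀ F κ Φ : Type*} [Field K] [Field F₀] [Field F] [Field κ] [Algebra K₀ F₀] [Algebra K F]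
  [Algebra k κ] [CommRing Φ] [Algebra k Φ]

/-! ## (UU) `S36/Core/USpace.lean` : API of `U_D(a,b)` -/
section UU

variable (C : Core3 A₀ resK K F₀ F κ Φ)

theorem Core3.mem_U {D : Divisor K F} {a b : ℕ} {s : F₀} :
    s ∈ C.U D a b ↔ C.ι s ∈ riemannRochSpace (maE K (C.ι C.x) a b + D) := Iff.rfl

theorem Core3.U_mono [IsAlgClosed K] (hF : IsFF K F) (D : Divisor K F) {a b a' b' : ℕ}
    (ha : a ≤ a') (hb : b ≤ b') : C.U D a b ≤ C.U D a' b' := by
  intro s hs
  rw [Core3.mem_U] at hs ⊢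
  refine L_mono ?_ hs
  intro P
  rw [Finsupp.add_apply, Finsupp.add_apply, maE_apply hF, maE_apply hF]
  have h1 : (a : ℤ) * max (-P.ord (C.ι C.x)) 0 ≤ a' * max (-P.ord (C.ι C.x)) 0 :=
    mul_le_mul_of_nonneg_right (by exact_mod_cast ha) (le_max_right _ _)
  have h2 : (b : ℤ) * max (P.ord (C.ι C.x)) 0 ≤ b' * max (P.ord (C.ι C.x)) 0 :=
    mul_le_mul_of_nonneg_right (by exact_mod_cast hb) (le_max_right _ _)
  omega

theorem Core3.one_mem_U [IsAlgClosed K] (hF : IsFF K F) (a b : ℕ) : (1 : F₀) ∈ C.U 0 a b := by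
  rw [Core3.mem_U, map_one, add_zero]
  exact ma_one_mem hF _ a b

theorem Core3.mul_mem_U [IsAlgClosed K] (hF : IsFF K F) {D D' : Divisor K F} {a b a' b' : ℕ}
    {s s' : F₀} (hs : s ∈ C.U D a b) (hs' : s' ∈ C.U D' a' b') :
    s * s' ∈ C.U (D + D') (a + a') (b + b') := by
  rw [Core3.mem_U, mem_L_iff] at hs hs' ⊢
  intro P
  rw [map_mul]
  refine D2.ge_mono P (le_of_eq ?_) (D2.ge_mul P (hs P) (hs' P))
  simp only [Finsupp.add_apply, maE_apply hF]
  push_cast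
  ring

theorem UU_m_pos {m : ℕ} (hm : (m : k) ≠ 0) : 0 < m := by
  rcases Nat.eq_zero_or_pos m with rfl | h
  · simp at hm
  · exact h

theorem Core3.pow_mul_mem_U [IsAlgClosed K] (hF : IsFF K F) {m : ℕ} {f : C.R.O}
    {D : Divisor K F} (hT : C.IsTw m f D) {a b : ℕ} {s : F₀} (hs : s ∈ C.U D a b) :
    s ^ m * (f : F₀) ∈ C.U 0 (m * a) (m * b) := by
  rw [Core3.mem_U] at hs ⊢
  rw [add_zero, map_mul, map_pow]
  exact ma_pow_mul_mem hF _ _ m (UU_m_pos hT.m_ne) D hT.div_f a b hs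

theorem Core3.UU_x_ne : C.x ≠ 0 := by
  intro h0
  obtain ⟨h, hx⟩ := C.hx₁
  have h1 : (⟨C.x, h⟩ : C.v₁.O) = 0 := Subtype.ext h0
  rw [h1, map_zero] at hx
  apply C.tr₁
  rw [← hx]
  exact isAlgebraic_zero

theorem Core3.UU_ιx_ne : C.ι C.x ≠ 0 := (map_ne_zero C.ι).mpr C.UU_x_ne

/-- `x ^ b U_D(a,b) = U_D(a+b,0)` -/
theorem Core3.x_pow_mul_mem_U_iff [IsAlgClosed K] (hF : IsFF K F) (D : Divisor K F) (a b : ℕ)
    (s : F₀) : C.x ^ b * s ∈ C.U D (a + b) 0 ↔ s ∈ C.U D a b := by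
  rw [Core3.mem_U, Core3.mem_U, mem_L_maE_iff hF C.UU_ιx_ne a b D, map_mul, map_pow]
  have : maE K (C.ι C.x) (a + b) 0 = (a + b) • poleDiv K (C.ι C.x) := by
    rw [maE, zero_smul, add_zero]
  rw [this]

theorem Core3.UU_card_le [IsAlgClosed K] (hF : IsFF K F) (D : Divisor K F) (a b : ℕ)
    (s : Finset (C.U D a b)) (hs : LinearIndependent K₀ (fun i : s => (i : C.U D a b))) :
    s.card ≤ FFLib.ell (maE K (C.ι C.x) a b + D) := by
  have hfin := finiteDimensional_L hF (maE K (C.ι C.x) a b + D)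
  set e := s.equivFin with he
  have h1 : LinearIndependent K₀ (fun i : Fin s.card => (((e.symm i : s) : C.U D a b) : F₀)) := by
    have h2 : LinearIndependent K₀ (fun i : Fin s.card => ((e.symm i : s) : C.U D a b)) :=
      hs.comp e.symm e.symm.injective
    exact h2.map' (C.U D a b).subtype (Submodule.ker_subtype _)
  have h3 := C.lin_disj s.card _ h1
  set g : Fin s.card → riemannRochSpace (maE K (C.ι C.x) a b + D) :=
    fun i => ⟨C.ι (((e.symm i : s) : C.U D a b) : F₀), ((e.symm i : s) : C.U D a b).2⟩ with hg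
  have h4 : LinearIndependent K g := by
    apply LinearIndependent.of_comp (riemannRochSpace (maE K (C.ι C.x) a b + D)).subtype
    exact h3
  have h5 := h4.fintype_card_le_finrank
  rw [Fintype.card_fin] at h5
  exact h5

theorem Core3.UU_rank_le [IsAlgClosed K] (hF : IsFF K F) (D : Divisor K F) (a b : ℕ) :
    Module.rank K₀ (C.U D a b) ≤ (FFLib.ell (maE K (C.ι C.x) a b + D) : ℕ) :=
  rank_le fun s hs => C.UU_card_le hF D a b s hs

theorem Core3.finiteDimensional_U [IsAlgClosed K] (hF : IsFF K F) (D : Divisor K F) (a b : ℕ) :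
    FiniteDimensional K₀ (C.U D a b) := by
  rw [FiniteDimensional, ← Module.rank_lt_aleph0_iff]
  exact lt_of_le_of_lt (C.UU_rank_le hF D a b) (Cardinal.natCast_lt_aleph0)

theorem Core3.finrank_U_le [IsAlgClosed K] (hF : IsFF K F) (D : Divisor K F) (a b : ℕ) :
    Module.finrank K₀ (C.U D a b) ≤ FFLib.ell (maE K (C.ι C.x) a b + D) :=
  Module.finrank_le_of_rank_le (C.UU_rank_le hF D a b)

theorem Core3.UU_degree_eq_zero [IsAlgClosed K] (hF : IsFF K F) {m : ℕ} {f : C.R.O}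
    {D : Divisor K F} (hT : C.IsTw m f D) : Divisor.degree D = 0 := by
  have h1 : divOf K (C.ι (f : F₀)) = m • D := by
    ext P
    rw [divOf_apply hF, hT.div_f, Finsupp.smul_apply, nsmul_eq_mul]
  have h2 := degree_divOf hF (C.ι (f : F₀))
  rw [h1, map_nsmul, nsmul_eq_mul] at h2
  have hm : (m : ℤ) ≠ 0 := by exact_mod_cast (UU_m_pos hT.m_ne).ne'
  exact (mul_eq_zero.mp h2).resolve_left hm

/-- `U_D(n,0) ∩ U_D(0,n) = 0` unless `D` is principal -/
theorem Core3.U_inf_eq_bot [IsAlgClosed K] (hF : IsFF K F) {m : ℕ} {f : C.R.O}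
    {D : Divisor K F} (hT : C.IsTw m f D) (hD : ¬ Divisor.IsPrincipal D) (n : ℕ) :
    C.U D n 0 ⊓ C.U D 0 n = ⊥ := by
  rw [eq_bot_iff]
  rintro s ⟨h1, h2⟩
  rw [Submodule.mem_bot]
  by_contra hs
  apply hD
  have hs' : C.ι s ≠ 0 := (map_ne_zero C.ι).mpr hs
  refine ma_isPrincipal_of_mem hF D (C.UU_degree_eq_zero hF hT) hs' ?_
  have h1' := mem_L_iff.mp ((Core3.mem_U C).mp h1)
  have h2' := mem_L_iff.mp ((Core3.mem_U C).mp h2)
  rw [mem_L_iff]
  intro P
  have e1 := h1' P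
  have e2 := h2' P
  rw [Finsupp.add_apply, maE_apply hF] at e1 e2
  rcases le_total 0 (P.ord (C.ι C.x)) with ho | ho
  · rw [max_eq_right (a := -P.ord (C.ι C.x)) (by omega)] at e1
    simpa using e1
  · rw [max_eq_right ho] at e2
    simpa using e2

theorem Core3.x_mem_O : C.x ∈ C.R.O := by
  rw [C.mem_O]
  exact ⟨C.hx₁.choose, C.hx₂.choose, C.hx₃.choose⟩

/-- `0` is a twist datum as soon as `L(a (x)_∞ + b (x)_0)` has a rational basis -/
theorem Core3.isTw_zero (m : ℕ) (hm : (m : k) ≠ 0)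
    (hrat : ∀ a b : ℕ, FFLib.ell (maE K (C.ι C.x) a b + 0) ≤ Module.finrank K₀ (C.U 0 a b)) :
    C.IsTw m 1 0 where
  m_ne := hm
  red_f := map_one _
  div_f := fun v => by
    rw [Subring.coe_one, map_one, v.ord_one]
    simp
  rat := hrat

end UU

end Fermat.Agent.S36Lib
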