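import Fermat.Agent.S36.Core.DVal
import Fermat.Agent.S36.Core.Bd
import Fermat.Agent.S36.Core.USpace

/-!
# S36, ABSTRACT CORE, (TB): the bounding lemma for the twisted modules
-/

set_option autoImplicit false

open AlgebraicCurve IntermediateField Polynomial Fermat.Agent.S24Lib Fermat.Agent.FFLib
  Fermat.Agent.S18Lib Fermat.Agent.S34Lib

namespace Fermat.Agent.S36Lib

theorem TB_lead_pow_mul {F₀ κ : Type*} [Field F₀] [Field κ] (v : DVal F₀ κ) {x : F₀} {ξ : κ}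
    (hx : ∃ h : x ∈ v.O, v.red ⟨x, h⟩ = ξ) (b α : ℕ) {g : F₀} (hg : v.ge α g) :
    v.ge α (x ^ b * g) ∧ v.lead α (x ^ b * g) = ξ ^ b * v.lead α g := by
  obtain ⟨h, hξ⟩ := hx
  have h0 : v.ge 0 x := (v.ge_zero_iff x).mpr h
  have h1 : v.ge 0 (x ^ b) := by
    have := v.ge_pow h0 b
    rwa [mul_zero] at this
  have h2 : v.lead 0 (x ^ b) = ξ ^ b := by
    have := v.lead_pow h0 b
    rw [mul_zero, v.lead_zero_eq h, hξ] at this
    exact this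
  have h3 := v.ge_mul h1 hg
  have h4 := v.lead_mul h1 hg
  rw [zero_add] at h3 h4
  exact ⟨h3, by rw [h4, h2]⟩

theorem TB_ne_zero {k κ : Type*} [Field k] [Field κ] [Algebra k κ] {y : κ}
    (hy : Transcendental k y) : y ≠ 0 := by
  rintro rfl
  exact hy isAlgebraic_zero

variable {K₀ k : Type*} [Field K₀] [Field k] {A₀ : ValuationSubring K₀} {resK : A₀ →+* k}
  {K F₀ F κ Φ : Type*} [Field K] [Field F₀] [Field F] [Field κ] [Algebra K₀ F₀] [Algebra K F]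
  [Algebra k κ] [CommRing Φ] [Algebra k Φ]

/-! ## (TB) `S36/Core/Twisted.lean` : the bounding lemma for the twisted modules -/
section TB

variable (C : Core3 A₀ resK K F₀ F κ Φ)

theorem Core3.TB_mem [IsAlgClosed K] (hF : IsFF K F) (a b : ℕ) (g : F₀) (hg : g ∈ C.U 0 a b) :
    C.ι (C.x ^ b * g) ∈ riemannRochSpace (maE K (C.ι C.x) (a + b) 0) := by
  have := (C.x_pow_mul_mem_U_iff hF 0 a b g).mpr hg
  rw [Core3.mem_U, add_zero] at this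
  exact this

/-- (BL) for `a (x)_∞ + b (x)_0` -/
theorem Core3.bx₁ [IsAlgClosed K] [IsAlgClosed k] (hF : IsFF K F) (hκ : IsFF k κ)
    (a b α γ β : ℕ) (g : F₀)
    (hg : g ∈ C.U 0 a b) (h₁ : C.v₁.ge α g) (h₂ : C.v₂.ge γ g) (h₃ : C.v₃.ge β g) :
    Bd k C.x₁ a b 12 ((((γ : ℤ) + β) - (C.e + 1) * α) • C.Z) (C.v₁.lead α g) := by
  have e1 := TB_lead_pow_mul C.v₁ C.hx₁ b α h₁
  have e2 := TB_lead_pow_mul C.v₂ C.hx₂ b γ h₂
  have e3 := TB_lead_pow_mul C.v₃ C.hx₃ b β h₃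
  have := C.bl₁ (a + b) α γ β (C.x ^ b * g) (C.TB_mem hF a b g hg) e1.1 e2.1 e3.1
  rw [e1.2] at this
  exact (Bd.mul_pow_iff hκ (TB_ne_zero C.tr₁) a b 12 _ _).mp this

theorem Core3.bx₃ [IsAlgClosed K] [IsAlgClosed k] (hF : IsFF K F) (hκ : IsFF k κ)
    (a b α γ β : ℕ) (g : F₀)
    (hg : g ∈ C.U 0 a b) (h₁ : C.v₁.ge α g) (h₂ : C.v₂.ge γ g) (h₃ : C.v₃.ge β g) :
    Bd k C.x₃ a b 12 ((((γ : ℤ) + α) - (C.e + 1) * β) • C.Z) (C.v₃.lead β g) := by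
  have e1 := TB_lead_pow_mul C.v₁ C.hx₁ b α h₁
  have e2 := TB_lead_pow_mul C.v₂ C.hx₂ b γ h₂
  have e3 := TB_lead_pow_mul C.v₃ C.hx₃ b β h₃
  have := C.bl₃ (a + b) α γ β (C.x ^ b * g) (C.TB_mem hF a b g hg) e1.1 e2.1 e3.1
  rw [e3.2] at this
  exact (Bd.mul_pow_iff hκ (TB_ne_zero C.tr₃) a b 12 _ _).mp this

theorem Core3.bx₂ [IsAlgClosed K] [IsAlgClosed k] (hF : IsFF K F) (hκ : IsFF k κ)
    (a b α γ β : ℕ) (g : F₀)
    (hg : g ∈ C.U 0 a b) (h₁ : C.v₁.ge α g) (h₂ : C.v₂.ge γ g) (h₃ : C.v₃.ge β g) :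
    Bd k C.x₂ a b (12 * C.e) (((C.e : ℤ) * ((α : ℤ) + β)) • C.Z - (γ : ℤ) • C.T)
      (C.v₂.lead γ g) := by
  have e1 := TB_lead_pow_mul C.v₁ C.hx₁ b α h₁
  have e2 := TB_lead_pow_mul C.v₂ C.hx₂ b γ h₂
  have e3 := TB_lead_pow_mul C.v₃ C.hx₃ b β h₃
  have := C.bl₂ (a + b) α γ β (C.x ^ b * g) (C.TB_mem hF a b g hg) e1.1 e2.1 e3.1
  rw [e2.2] at this
  exact (Bd.mul_pow_iff hκ (TB_ne_zero C.tr₂) a b (12 * C.e) _ _).mp this

theorem TB_lead_eq_one {F₀ κ : Type*} [Field F₀] [Field κ] (v : DVal F₀ κ) {f : F₀}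
    (h : v.ge 1 (f - 1)) : v.ge 0 f ∧ v.lead 0 f = 1 := by
  have h0 : v.ge 0 (f - 1) := v.ge_succ h
  have h1 : v.ge 0 (1 : F₀) := (v.ge_zero_iff 1).mpr v.O.one_mem
  have h2 : v.lead 0 (f - 1) = 0 := (v.lead_eq_zero_iff h0).mpr h
  have h3 := v.lead_add h0 h1
  have h4 := v.ge_add h0 h1
  rw [sub_add_cancel] at h3 h4
  rw [h2, v.lead_one, zero_add] at h3
  exact ⟨h4, h3⟩

theorem Core3.TB_f {m : ℕ} {f : C.R.O} {D : Divisor K F} (hT : C.IsTw m f D) :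
    C.v₁.ge 1 ((f : F₀) - 1) ∧ C.v₂.ge 1 ((f : F₀) - 1) ∧ C.v₃.ge 1 ((f : F₀) - 1) := by
  have h1 : C.R.red (f - 1) = 0 := by rw [map_sub, hT.red_f, map_one, sub_self]
  have h2 := (C.red_eq_zero (f - 1)).mp h1
  exact ⟨h2.1, C.v₂.ge_mono C.e_pos h2.2.1, h2.2.2⟩

/-- `f ≡ 1` -/
theorem Core3.lead_f {m : ℕ} {f : C.R.O} {D : Divisor K F} (hT : C.IsTw m f D) :
    C.v₁.lead 0 (f : F₀) = 1 ∧ C.v₂.lead 0 (f : F₀) = 1 ∧ C.v₃.lead 0 (f : F₀) = 1 := by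
  have h := C.TB_f hT
  exact ⟨(TB_lead_eq_one _ h.1).2, (TB_lead_eq_one _ h.2.1).2, (TB_lead_eq_one _ h.2.2).2⟩

theorem TB_pow_mul {F₀ κ : Type*} [Field F₀] [Field κ] (v : DVal F₀ κ) {f s : F₀}
    (h : v.ge 1 (f - 1)) (m α : ℕ) (hs : v.ge α s) :
    v.ge (m * α) (s ^ m * f) ∧ v.lead (m * α) (s ^ m * f) = v.lead α s ^ m := by
  obtain ⟨h0, h1⟩ := TB_lead_eq_one v h
  have h2 := v.ge_mul (v.ge_pow hs m) h0
  have h3 := v.lead_mul (v.ge_pow hs m) h0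
  rw [add_zero] at h2 h3
  rw [h1, mul_one, v.lead_pow hs] at h3
  exact ⟨h2, h3⟩

theorem Core3.tb₁ [IsAlgClosed K] [IsAlgClosed k] (hF : IsFF K F) (hκ : IsFF k κ) {m : ℕ}
    {f : C.R.O} {D : Divisor K F} (hT : C.IsTw m f D) (a b α γ β : ℕ) (s : F₀)
    (hs : s ∈ C.U D a b) (h₁ : C.v₁.ge α s) (h₂ : C.v₂.ge γ s) (h₃ : C.v₃.ge β s) :
    Bd k C.x₁ a b 12 ((((γ : ℤ) + β) - (C.e + 1) * α) • C.Z) (C.v₁.lead α s) := by
  have hf := C.TB_f hT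
  have e1 := TB_pow_mul C.v₁ hf.1 m α h₁
  have e2 := TB_pow_mul C.v₂ hf.2.1 m γ h₂
  have e3 := TB_pow_mul C.v₃ hf.2.2 m β h₃
  have := C.bx₁ hF hκ (m * a) (m * b) (m * α) (m * γ) (m * β) _ (C.pow_mul_mem_U hF hT hs)
    e1.1 e2.1 e3.1
  rw [e1.2] at this
  apply Bd.of_pow hκ (UU_m_pos hT.m_ne)
  convert this using 1
  rw [smul_smul]
  congr 1
  push_cast
  ring

theorem Core3.tb₃ [IsAlgClosed K] [IsAlgClosed k] (hF : IsFF K F) (hκ : IsFF k κ) {m : ℕ}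
    {f : C.R.O} {D : Divisor K F} (hT : C.IsTw m f D) (a b α γ β : ℕ) (s : F₀)
    (hs : s ∈ C.U D a b) (h₁ : C.v₁.ge α s) (h₂ : C.v₂.ge γ s) (h₃ : C.v₃.ge β s) :
    Bd k C.x₃ a b 12 ((((γ : ℤ) + α) - (C.e + 1) * β) • C.Z) (C.v₃.lead β s) := by
  have hf := C.TB_f hT
  have e1 := TB_pow_mul C.v₁ hf.1 m α h₁
  have e2 := TB_pow_mul C.v₂ hf.2.1 m γ h₂
  have e3 := TB_pow_mul C.v₃ hf.2.2 m β h₃
  have := C.bx₃ hF hκ (m * a) (m * b) (m * α) (m * γ) (m * β) _ (C.pow_mul_mem_U hF hT hs)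
    e1.1 e2.1 e3.1
  rw [e3.2] at this
  apply Bd.of_pow hκ (UU_m_pos hT.m_ne)
  convert this using 1
  rw [smul_smul]
  congr 1
  push_cast
  ring

theorem Core3.tb₂ [IsAlgClosed K] [IsAlgClosed k] (hF : IsFF K F) (hκ : IsFF k κ) {m : ℕ}
    {f : C.R.O} {D : Divisor K F} (hT : C.IsTw m f D) (a b α γ β : ℕ) (s : F₀)
    (hs : s ∈ C.U D a b) (h₁ : C.v₁.ge α s) (h₂ : C.v₂.ge γ s) (h₃ : C.v₃.ge β s) :
    Bd k C.x₂ a b (12 * C.e) (((C.e : ℤ) * ((α : ℤ) + β)) • C.Z - (γ : ℤ) • C.T)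
      (C.v₂.lead γ s) := by
  have hf := C.TB_f hT
  have e1 := TB_pow_mul C.v₁ hf.1 m α h₁
  have e2 := TB_pow_mul C.v₂ hf.2.1 m γ h₂
  have e3 := TB_pow_mul C.v₃ hf.2.2 m β h₃
  have := C.bx₂ hF hκ (m * a) (m * b) (m * α) (m * γ) (m * β) _ (C.pow_mul_mem_U hF hT hs)
    e1.1 e2.1 e3.1
  rw [e2.2] at this
  apply Bd.of_pow hκ (UU_m_pos hT.m_ne)
  convert this using 1
  rw [smul_sub, smul_smul, smul_smul]
  congr 2
  push_cast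
  ring

/-- the bound along the chain -/
theorem Core3.ld_mem [IsAlgClosed K] [IsAlgClosed k] (hF : IsFF K F) (hκ : IsFF k κ) {m : ℕ}
    {f : C.R.O} {D : Divisor K F} (hT : C.IsTw m f D) (a b t : ℕ) (s : F₀)
    (hs : s ∈ C.U D a b) (ht : C.Fge t s) : C.ld t s ∈ riemannRochSpace (C.E t a b) := by
  obtain ⟨h1, h2, h3⟩ := ht
  rcases t with _ | _ | t
  · have := C.tb₁ hF hκ hT a b 0 0 0 s hs h1 h2 h3
    have e : C.E 0 a b = EE k C.x₁ a b 12 0 := by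
      simp [Core3.E, Core3.y, Core3.NN, Core3.WW]
    rw [e, mem_L_EE_iff (by norm_num)]
    have e2 : C.ld 0 s = C.v₁.lead 0 s := by simp [Core3.ld]
    rw [e2]
    convert this using 1
    simp
  · have := C.tb₃ hF hκ hT a b 1 0 0 s hs h1 h2 h3
    have e : C.E 1 a b = EE k C.x₃ a b 12 C.Z := by
      simp [Core3.E, Core3.y, Core3.NN, Core3.WW]
    rw [zero_add, e, mem_L_EE_iff (by norm_num)]
    have e2 : C.ld 1 s = C.v₃.lead 0 s := by simp [Core3.ld]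
    rw [e2]
    convert this using 1
    simp
  · have h1' : C.v₁.ge 1 s := by
      have : min (t + 1 + 1) 1 = 1 := by omega
      rwa [this] at h1
    have h2' : C.v₂.ge t s := h2
    have h3' : C.v₃.ge 1 s := by
      have : min (t + 1 + 1 - 1) 1 = 1 := by omega
      rwa [this] at h3
    have := C.tb₂ hF hκ hT a b 1 t 1 s hs h1' h2' h3'
    have e : C.E (t + 1 + 1) a b
        = EE k C.x₂ a b (12 * C.e) ((2 * (C.e : ℤ)) • C.Z - (t : ℤ) • C.T) := by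
      simp [Core3.E, Core3.y, Core3.NN, Core3.WW]
    rw [e, mem_L_EE_iff (Nat.mul_pos (by norm_num) C.e_pos)]
    have e2 : C.ld (t + 1 + 1) s = C.v₂.lead t s := by simp [Core3.ld]
    rw [e2]
    convert this using 3
    push_cast
    ring

end TB

end Fermat.Agent.S36Lib
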