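import Fermat.Agent.S36.Core.Defs
import Fermat.Agent.S36.Core.DVal
import Fermat.Agent.S36.Core.Bd
import Fermat.Agent.S36.Core.USpace
import Fermat.Agent.S36.Core.Twisted
import Fermat.Agent.S36.Core.Chain
import Fermat.Agent.S34.EvP
import Fermat.Agent.S34.FFSup
import Fermat.Agent.S34.MulX

/-!
# S36, ABSTRACT CORE, (CNT): the tight count
-/

set_option autoImplicit false
set_option linter.style.haveILetI false

open AlgebraicCurve IntermediateField Polynomial Fermat.Agent.S24Lib Fermat.Agent.FFLib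
  Fermat.Agent.S18Lib Fermat.Agent.S34Lib

namespace Fermat.Agent.S36Lib

/-- abstract linear algebra: a chain of subspaces with leading term maps into `L t` -/
theorem chain_surjective {k Φ κ : Type*} [Field k] [AddCommGroup Φ] [Module k Φ]
    [AddCommGroup κ] [Module k κ] (T : ℕ) (W : ℕ → Submodule k Φ) (L : ℕ → Submodule k κ)
    [∀ t, FiniteDimensional k (L t)] (hT : W T = ⊥) (hmono : ∀ t, W (t + 1) ≤ W t)
    (lam : ∀ t, W t →ₗ[k] κ) (hL : ∀ t < T, ∀ φ, lam t φ ∈ L t)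
    (hker : ∀ t < T, ∀ φ : W t, lam t φ = 0 ↔ (φ : Φ) ∈ W (t + 1))
    (hdim : ∑ t ∈ Finset.range T, Module.finrank k (L t) ≤ Module.finrank k (W 0))
    [FiniteDimensional k (W 0)] :
    (∀ t < T, ∀ u ∈ L t, ∃ φ, lam t φ = u) ∧
      Module.finrank k (W 0) = ∑ t ∈ Finset.range T, Module.finrank k (L t) := by
  have hle0 : ∀ t, W t ≤ W 0 := by
    intro t
    induction t with
    | zero => exact le_rfl
    | succ t ih => exact (hmono t).trans ih
  haveI hfin : ∀ t, FiniteDimensional k (W t) := fun t =>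
    Submodule.finiteDimensional_of_le (hle0 t)
  have hstep : ∀ t < T, Module.finrank k (W t) =
      Module.finrank k (LinearMap.range (lam t)) + Module.finrank k (W (t + 1)) := by
    intro t ht
    have h1 := LinearMap.finrank_range_add_finrank_ker (lam t)
    have h2 : LinearMap.ker (lam t) = Submodule.comap (W t).subtype (W (t + 1)) := by
      ext φ
      rw [LinearMap.mem_ker, hker t ht φ]
      rfl
    have h3 : Module.finrank k (LinearMap.ker (lam t)) = Module.finrank k (W (t + 1)) := by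
      rw [h2]
      exact (Submodule.comapSubtypeEquivOfLe (hmono t)).finrank_eq
    rw [← h1, h3]
  have hsum : ∀ s ≤ T, Module.finrank k (W 0) =
      ∑ t ∈ Finset.range s, Module.finrank k (LinearMap.range (lam t)) +
        Module.finrank k (W s) := by
    intro s hs
    induction s with
    | zero => simp
    | succ s ih =>
      rw [ih (by omega), Finset.sum_range_succ, hstep s (by omega)]
      ring
  have hrl : ∀ t < T, LinearMap.range (lam t) ≤ L t := by
    rintro t ht _ ⟨φ, rfl⟩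
    exact hL t ht φ
  have hrle : ∀ t ∈ Finset.range T, Module.finrank k (LinearMap.range (lam t)) ≤
      Module.finrank k (L t) := fun t ht =>
    Submodule.finrank_mono (hrl t (Finset.mem_range.1 ht))
  have htot := hsum T le_rfl
  rw [hT, finrank_bot, add_zero] at htot
  have hle := Finset.sum_le_sum hrle
  have heq : ∑ t ∈ Finset.range T, Module.finrank k (LinearMap.range (lam t)) =
      ∑ t ∈ Finset.range T, Module.finrank k (L t) := by omega
  have hall := (Finset.sum_eq_sum_iff_of_le hrle).1 heq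
  refine ⟨fun t ht u hu => ?_, by omega⟩
  have h1 : LinearMap.range (lam t) = L t :=
    Submodule.eq_of_le_of_finrank_eq (hrl t ht) (hall t (Finset.mem_range.2 ht))
  rw [← h1] at hu
  exact hu

theorem CNT_sum_sub (n : ℕ) : ∑ g ∈ Finset.range n, 2 * ((n : ℤ) - g) = n * (n + 1) := by
  induction n with
  | zero => simp
  | succ n ih =>
    rw [Finset.sum_range_succ']
    have : ∀ g ∈ Finset.range n, 2 * (((n + 1 : ℕ) : ℤ) - ((g + 1 : ℕ) : ℤ)) = 2 * ((n : ℤ) - g) := by
      intro g _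
      push_cast
      ring
    rw [Finset.sum_congr rfl this, ih]
    push_cast
    ring

variable {K₀ k : Type*} [Field K₀] [Field k] {A₀ : ValuationSubring K₀} {resK : A₀ →+* k}
  {K F₀ F κ Φ : Type*} [Field K] [Field F₀] [Field F] [Field κ] [Algebra K₀ F₀] [Algebra K F]
  [Algebra k κ] [CommRing Φ] [Algebra k Φ]

section CNT

variable (C : Core3 A₀ resK K F₀ F κ Φ)

theorem Core3.CNT_tr_y (t : ℕ) : Transcendental k (C.y t) := by
  unfold Core3.y
  split_ifs
  · exact C.tr₁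
  · exact C.tr₃
  · exact C.tr₂

theorem Core3.CNT_NN_pos (t : ℕ) : 0 < C.NN t := by
  unfold Core3.NN
  split_ifs
  · norm_num
  · exact Nat.mul_pos (by norm_num) C.e_pos

/-- the degree of the `t`-th correction divisor -/
noncomputable def Core3.CNT_c (t : ℕ) : ℤ := Divisor.degree (ceilDiv (C.NN t) (C.WW t))

theorem Core3.CNT_degree_E [IsAlgClosed k] (hκ : IsFF k κ) (t a b : ℕ) :
    Divisor.degree (C.E t a b) = ((a : ℤ) + b) * Module.finrank k⟮C.y t⟯ κ - C.CNT_c t :=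
  degree_EE hκ (C.CNT_tr_y t) a b _ _

theorem Core3.CNT_c_zero [IsAlgClosed k] (hκ : IsFF k κ) : 0 ≤ 12 * C.CNT_c 0 := by
  have h := degree_ceilDiv hκ (C.CNT_NN_pos 0) (C.WW 0)
  have h1 : C.WW 0 = 0 := by unfold Core3.WW; rw [if_pos rfl]
  have h2 : C.NN 0 = 12 := by unfold Core3.NN; rw [if_pos (by norm_num)]
  rw [h1, map_zero, h2] at h
  unfold Core3.CNT_c
  rw [h1, h2]
  exact_mod_cast h

theorem Core3.CNT_c_one [IsAlgClosed k] (hκ : IsFF k κ) : (C.e : ℤ) * C.ψ ≤ 12 * C.CNT_c 1 := by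
  have h := degree_ceilDiv hκ (C.CNT_NN_pos 1) (C.WW 1)
  have h1 : C.WW 1 = C.Z := by unfold Core3.WW; rw [if_neg one_ne_zero, if_pos rfl]
  have h2 : C.NN 1 = 12 := by unfold Core3.NN; rw [if_pos le_rfl]
  rw [h1, h2] at h
  unfold Core3.CNT_c
  rw [h1, h2]
  have := C.deg_Z
  push_cast at h
  linarith

theorem Core3.CNT_c_add_two [IsAlgClosed k] (hκ : IsFF k κ) (g : ℕ) :
    C.ψ * (2 * ((C.e : ℤ) - g)) ≤ 12 * C.CNT_c (g + 2) := by
  have h := degree_ceilDiv hκ (C.CNT_NN_pos (g + 2)) (C.WW (g + 2))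
  have h1 : C.WW (g + 2) = (2 * (C.e : ℤ)) • C.Z - (g : ℤ) • C.T := by
    unfold Core3.WW
    rw [if_neg (by omega), if_neg (by omega), Nat.add_sub_cancel]
  have h2 : C.NN (g + 2) = 12 * C.e := by unfold Core3.NN; rw [if_neg (by omega)]
  rw [h1, h2, map_sub, map_zsmul, map_zsmul] at h
  unfold Core3.CNT_c
  rw [h1, h2]
  set c := Divisor.degree (ceilDiv (12 * C.e) ((2 * (C.e : ℤ)) • C.Z - (g : ℤ) • C.T)) with hc
  have hZ := C.deg_Z
  have hT := C.deg_T
  have he : (0 : ℤ) < C.e := by exact_mod_cast C.e_pos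
  simp only [smul_eq_mul] at h
  push_cast at h
  have hg : (0 : ℤ) ≤ g := by positivity
  have h3 : (C.e : ℤ) * (C.ψ * (2 * ((C.e : ℤ) - g))) ≤ (C.e : ℤ) * (12 * c) := by
    have a1 : 2 * (C.e : ℤ) * ((C.e : ℤ) * C.ψ) ≤ 2 * (C.e : ℤ) * Divisor.degree C.Z :=
      mul_le_mul_of_nonneg_left hZ (by positivity)
    have a2 : (g : ℤ) * Divisor.degree C.T ≤ (g : ℤ) * (2 * C.e * C.ψ) :=
      mul_le_mul_of_nonneg_left hT hg
    nlinarith
  exact le_of_mul_le_mul_left h3 he

theorem Core3.CNT_sum_c [IsAlgClosed k] (hκ : IsFF k κ) :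
    (C.e : ℤ) * (C.e + 2) * C.ψ ≤ 12 * ∑ t ∈ Finset.range (C.e + 2), C.CNT_c t := by
  rw [Finset.sum_range_succ', Finset.sum_range_succ']
  have h0 := C.CNT_c_zero hκ
  have h1 := C.CNT_c_one hκ
  have h2 : ∑ g ∈ Finset.range C.e, C.ψ * (2 * ((C.e : ℤ) - g)) ≤
      ∑ g ∈ Finset.range C.e, 12 * C.CNT_c (g + 1 + 1) :=
    Finset.sum_le_sum fun g _ => C.CNT_c_add_two hκ g
  rw [← Finset.mul_sum, CNT_sum_sub, ← Finset.mul_sum] at h2
  rw [zero_add]
  nlinarith

/-- numerics: `∑_t (deg E_t(a,b) + 1 - g') ≤ (a+b) d + 1 - g_F` -/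
theorem Core3.sum_degree_E_le [IsAlgClosed k] (hκ : IsFF k κ) (a b : ℕ) :
    ∑ t ∈ Finset.range (C.e + 2), (Divisor.degree (C.E t a b) + 1 - (genusR k κ : ℤ)) ≤
      ((a : ℤ) + b) * Module.finrank K⟮C.ι C.x⟯ F + 1 - C.gF := by
  simp only [C.CNT_degree_E hκ]
  have hsplit : ∑ t ∈ Finset.range (C.e + 2),
      (((a : ℤ) + b) * Module.finrank k⟮C.y t⟯ κ - C.CNT_c t + 1 - (genusR k κ : ℤ)) =
      ((a : ℤ) + b) * ∑ t ∈ Finset.range (C.e + 2), (Module.finrank k⟮C.y t⟯ κ : ℤ)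
        - ∑ t ∈ Finset.range (C.e + 2), C.CNT_c t + ((C.e : ℤ) + 2) * (1 - (genusR k κ : ℤ)) := by
    rw [Finset.mul_sum, ← Finset.sum_sub_distrib]
    have : ((C.e : ℤ) + 2) * (1 - (genusR k κ : ℤ)) =
        ∑ _t ∈ Finset.range (C.e + 2), (1 - (genusR k κ : ℤ)) := by
      rw [Finset.sum_const, Finset.card_range, nsmul_eq_mul]
      push_cast
      ring
    rw [this, ← Finset.sum_add_distrib]
    refine Finset.sum_congr rfl fun t _ => ?_
    ring
  rw [hsplit]
  have hd : ∑ t ∈ Finset.range (C.e + 2), (Module.finrank k⟮C.y t⟯ κ : ℤ) =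
      (Module.finrank k⟮C.x₁⟯ κ : ℤ) + C.e * Module.finrank k⟮C.x₂⟯ κ +
        Module.finrank k⟮C.x₃⟯ κ := by
    rw [Finset.sum_range_succ', Finset.sum_range_succ']
    have h0 : C.y 0 = C.x₁ := by unfold Core3.y; rw [if_pos rfl]
    have h1 : C.y (0 + 1) = C.x₃ := by unfold Core3.y; rw [if_neg (by omega), if_pos rfl]
    have h2 : ∀ g, C.y (g + 1 + 1) = C.x₂ := by
      intro g
      unfold Core3.y
      rw [if_neg (by omega), if_neg (by omega)]
    rw [h0, h1, Finset.sum_congr rfl (fun g _ => by rw [h2 g]), Finset.sum_const,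
      Finset.card_range, nsmul_eq_mul]
    ring
  rw [hd]
  have hc := C.CNT_sum_c hκ
  have hg := C.genus
  have hdl := C.deg_le
  have hab : (0 : ℤ) ≤ (a : ℤ) + b := by positivity
  have h1 := mul_le_mul_of_nonneg_left hdl hab
  nlinarith

theorem Core3.CNT_tr_x (hF : IsFF K F) (hκ : IsFF k κ) : Transcendental K (C.ι C.x) := by
  intro halg
  have h1 := sup_finrank_pos hκ C.tr₁
  have h2 := C.deg_le
  have hpos : 0 < Module.finrank K⟮C.ι C.x⟯ F := by
    have a2 : (0 : ℤ) ≤ (C.e : ℤ) * Module.finrank k⟮C.x₂⟯ κ := by positivity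
    have a3 : (0 : ℤ) ≤ (Module.finrank k⟮C.x₃⟯ κ : ℤ) := by positivity
    have a1 : (0 : ℤ) < (Module.finrank k⟮C.x₁⟯ κ : ℤ) := by exact_mod_cast h1
    have : (0 : ℤ) < (Module.finrank K⟮C.ι C.x⟯ F : ℤ) := by linarith
    exact_mod_cast this
  haveI : FiniteDimensional K⟮C.ι C.x⟯ F := Module.finite_of_finrank_pos hpos
  haveI : FiniteDimensional K K⟮C.ι C.x⟯ :=
    IntermediateField.adjoin.finiteDimensional halg.isIntegral
  haveI : FiniteDimensional K F := Module.Finite.trans K⟮C.ι C.x⟯ F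
  obtain ⟨t, ht, -⟩ := hF
  exact ht (Algebra.IsAlgebraic.isAlgebraic t)

theorem Core3.CNT_degree_D [IsAlgClosed K] (hF : IsFF K F) {m : ℕ} {f : C.R.O}
    {D : Divisor K F} (hT : C.IsTw m f D) : Divisor.degree D = 0 := by
  have hm0 : m ≠ 0 := by
    rintro rfl
    exact hT.m_ne (by simp)
  have e : m • D = divOf K (C.ι (f : F₀)) := by
    ext v
    rw [divOf_apply hF, hT.div_f v]
    simp
  have := degree_divOf hF (C.ι (f : F₀))
  rw [← e, map_nsmul, nsmul_eq_mul] at this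
  rcases mul_eq_zero.1 this with h | h
  · exact absurd (by exact_mod_cast h) hm0
  · exact h

theorem Core3.CNT_VF_zero (hres : Function.Surjective resK) (U : Submodule K₀ F₀) :
    C.VF hres U 0 = redSp C.R hres U := by
  ext φ
  constructor
  · rintro ⟨x, hx, -, hr⟩
    exact ⟨x, hx, hr⟩
  · rintro ⟨x, hx, hr⟩
    exact ⟨x, hx, (C.Fge_zero_iff _).2 x.2, hr⟩

theorem Core3.CNT_VF_top (hres : Function.Surjective resK) (U : Submodule K₀ F₀) :
    C.VF hres U (C.e + 2) = ⊥ := by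
  rw [eq_bot_iff]
  rintro φ ⟨x, -, hxF, rfl⟩
  exact (C.Fge_top_iff x).1 hxF

theorem Core3.CNT_VF_mono (hres : Function.Surjective resK) (U : Submodule K₀ F₀) (t : ℕ) :
    C.VF hres U (t + 1) ≤ C.VF hres U t := by
  rintro φ ⟨x, hx, hxF, hr⟩
  exact ⟨x, hx, C.Fge_succ hxF, hr⟩

/-- **(TC)** every graded piece is the full `L`-space -/
theorem Core3.tight [IsAlgClosed K] [IsAlgClosed k] (hF : IsFF K F) (hκ : IsFF k κ)
    (hres : Function.Surjective resK) :
    ∃ n₀ : ℕ, ∀ {m : ℕ} {f : C.R.O} {D : Divisor K F}, C.IsTw m f D → ∀ a b : ℕ, n₀ ≤ a + b →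
      (∀ t < C.e + 2, ∀ u ∈ riemannRochSpace (C.E t a b),
        ∃ s : F₀, s ∈ C.U D a b ∧ C.Fge t s ∧ C.ld t s = u) ∧
      Module.finrank K₀ (C.U D a b) = ∑ t ∈ Finset.range (C.e + 2), FFLib.ell (C.E t a b) := by
  classical
  obtain ⟨c, hc⟩ := riemann_equality hκ
  set B : ℤ := ∑ t ∈ Finset.range (C.e + 2), |C.CNT_c t| with hB
  have hBt : ∀ t < C.e + 2, C.CNT_c t ≤ B := by
    intro t ht
    refine (le_abs_self _).trans ?_
    exact Finset.single_le_sum (f := fun t => |C.CNT_c t|) (fun i _ => abs_nonneg _)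
      (Finset.mem_range.2 ht)
  refine ⟨(|c| + B).toNat, ?_⟩
  intro m f D hT a b hab
  have hab' : |c| + B ≤ (a : ℤ) + b := by
    have := Int.self_le_toNat (|c| + B)
    have h2 : (((|c| + B).toNat : ℕ) : ℤ) ≤ ((a + b : ℕ) : ℤ) := by exact_mod_cast hab
    push_cast at h2
    linarith
  have hab0 : (0 : ℤ) ≤ (a : ℤ) + b := by positivity
  -- Riemann-Roch for the graded pieces
  have hell : ∀ t < C.e + 2, (FFLib.ell (C.E t a b) : ℤ) =
      Divisor.degree (C.E t a b) + 1 - (genusR k κ : ℤ) := by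
    intro t ht
    apply hc
    rw [C.CNT_degree_E hκ]
    have hd : (1 : ℤ) ≤ (Module.finrank k⟮C.y t⟯ κ : ℤ) := by
      exact_mod_cast sup_finrank_pos hκ (C.CNT_tr_y t)
    have h1 := hBt t ht
    have h2 := le_abs_self c
    nlinarith
  set U := C.U D a b with hU
  haveI hUfin : FiniteDimensional K₀ U := C.finiteDimensional_U hF D a b
  -- the lower bound for the dimension
  have hlow : (∑ t ∈ Finset.range (C.e + 2), FFLib.ell (C.E t a b) : ℕ) ≤
      Module.finrank K₀ U := by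
    have h1 : ((∑ t ∈ Finset.range (C.e + 2), FFLib.ell (C.E t a b) : ℕ) : ℤ) =
        ∑ t ∈ Finset.range (C.e + 2),
          (Divisor.degree (C.E t a b) + 1 - (genusR k κ : ℤ)) := by
      rw [Nat.cast_sum]
      exact Finset.sum_congr rfl fun t ht => hell t (Finset.mem_range.1 ht)
    have h2 := C.sum_degree_E_le hκ a b
    have h3 := C.riemann (maE K (C.ι C.x) a b + D)
    rw [map_add, maE_degree hF (C.CNT_tr_x hF hκ), C.CNT_degree_D hF hT, add_zero] at h3
    have h4 := hT.rat a b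
    have h5 : ((∑ t ∈ Finset.range (C.e + 2), FFLib.ell (C.E t a b) : ℕ) : ℤ) ≤
        (Module.finrank K₀ U : ℤ) := by
      have : (FFLib.ell (maE K (C.ι C.x) a b + D) : ℤ) ≤ (Module.finrank K₀ U : ℤ) := by
        exact_mod_cast h4
      linarith
    exact_mod_cast h5
  -- the chain
  let W : ℕ → Submodule k Φ := fun t => C.VF hres U t
  let L : ℕ → Submodule k κ := fun t => riemannRochSpace (C.E t a b)
  haveI : ∀ t, FiniteDimensional k (L t) := fun t => finiteDimensional_L hκ _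
  let lam : ∀ t, W t →ₗ[k] κ := fun t =>
    if h : t < C.e + 2 then (C.exists_ldMap hres U h).choose else 0
  have hlam1 : ∀ t (_ : t < C.e + 2) (x : C.R.O) (h : C.R.red x ∈ W t), C.Fge t (x : F₀) →
      lam t ⟨C.R.red x, h⟩ = C.ld t (x : F₀) := by
    intro t ht x h hx
    simp only [lam, dif_pos ht]
    exact (C.exists_ldMap hres U ht).choose_spec.1 x h hx
  have hlam2 : ∀ t < C.e + 2, ∀ φ : W t, lam t φ = 0 ↔ (φ : Φ) ∈ W (t + 1) := by
    intro t ht φ
    simp only [lam, dif_pos ht]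
    exact (C.exists_ldMap hres U ht).choose_spec.2 φ
  have hlift : ∀ t (_ : t < C.e + 2) (φ : W t), ∃ x : C.R.O, (x : F₀) ∈ U ∧ C.Fge t (x : F₀) ∧
      lam t φ = C.ld t (x : F₀) := by
    intro t ht φ
    obtain ⟨x, hxU, hxF, hr⟩ := C.mem_VF.1 φ.2
    have hmem : C.R.red x ∈ W t := by rw [hr]; exact φ.2
    have e : φ = ⟨C.R.red x, hmem⟩ := Subtype.ext hr.symm
    exact ⟨x, hxU, hxF, by rw [e]; exact hlam1 t ht x hmem hxF⟩
  have hW0 : W 0 = redSp C.R hres U := C.CNT_VF_zero hres U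
  haveI : FiniteDimensional k (W 0) := by
    rw [hW0]
    exact finiteDimensional_redSp C.R hres U
  have hW0dim : Module.finrank k (W 0) = Module.finrank K₀ U := by
    rw [hW0]
    exact finrank_redSp C.R hres U
  have key := chain_surjective (C.e + 2) W L (C.CNT_VF_top hres U) (C.CNT_VF_mono hres U) lam
    (by
      intro t ht φ
      obtain ⟨x, hxU, hxF, hx⟩ := hlift t ht φ
      rw [hx]
      exact C.ld_mem hF hκ hT a b t x hxU hxF)
    hlam2 (by rw [hW0dim]; exact hlow)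
  refine ⟨?_, ?_⟩
  · intro t ht u hu
    obtain ⟨φ, hφ⟩ := key.1 t ht u hu
    obtain ⟨x, hxU, hxF, hx⟩ := hlift t ht φ
    exact ⟨x, hxU, hxF, hx.symm.trans hφ⟩
  · rw [← hW0dim, key.2]
    rfl

end CNT

end Fermat.Agent.S36Lib
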