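import Fermat.Agent.S36.Core.Defs
import Fermat.Agent.S36.Core.DVal
import Fermat.Agent.S36.Core.Bd
import Fermat.Agent.S36.Core.USpace
import Fermat.Agent.S36.Core.Twisted
import Fermat.Agent.S36.Core.Chain
import Fermat.Agent.S36.Core.Count

/-!
# S36, ABSTRACT CORE, (INT): intersections
-/

set_option autoImplicit false
set_option linter.style.haveILetI false

open AlgebraicCurve IntermediateField Polynomial Fermat.Agent.S24Lib Fermat.Agent.FFLib
  Fermat.Agent.S18Lib Fermat.Agent.S34Lib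

namespace Fermat.Agent.S36Lib

variable {K₀ k : Type*} [Field K₀] [Field k] {A₀ : ValuationSubring K₀} {resK : A₀ →+* k}
  {K F₀ F κ Φ : Type*} [Field K] [Field F₀] [Field F] [Field κ] [Algebra K₀ F₀] [Algebra K F]
  [Algebra k κ] [CommRing Φ] [Algebra k Φ]

section INT

variable (C : Core3 A₀ resK K F₀ F κ Φ)

/-- descent along the chain -/
theorem Core3.le_of_chain (hres : Function.Surjective resK) (S W : Submodule k Φ) (hWS : W ≤ S)
    (hstep : ∀ t < C.e + 2, ∀ x : C.R.O, C.R.red x ∈ S → C.Fge t (x : F₀) →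
      ∃ y : C.R.O, C.R.red y ∈ W ∧ C.Fge t (y : F₀) ∧ C.ld t (y : F₀) = C.ld t (x : F₀)) :
    S ≤ W := by
  intro φ hφ
  have key : ∀ t ≤ C.e + 2, ∃ w ∈ W, ∃ x : C.R.O, φ - w = C.R.red x ∧ C.Fge t (x : F₀) := by
    intro t
    induction t with
    | zero =>
      intro _
      obtain ⟨x, hx⟩ := C.R.red_surjective φ
      exact ⟨0, W.zero_mem, x, by rw [sub_zero, hx], (C.Fge_zero_iff _).2 x.2⟩
    | succ t ih =>
      intro ht
      obtain ⟨w, hw, x, hx, hxF⟩ := ih (by omega)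
      have hxS : C.R.red x ∈ S := by
        rw [← hx]
        exact S.sub_mem hφ (hWS hw)
      obtain ⟨y, hyW, hyF, hy⟩ := hstep t (by omega) x hxS hxF
      refine ⟨w + C.R.red y, W.add_mem hw hyW, x - y, ?_, ?_⟩
      · rw [map_sub, ← hx]
        abel
      · have h1 : C.ld t ((x : F₀) - (y : F₀)) = 0 := by
          rw [C.ld_sub hxF hyF, hy, sub_self]
        exact (C.ld_eq_zero_iff (by omega) (C.Fge_sub hxF hyF)).1 h1
  obtain ⟨w, hw, x, hx, hxF⟩ := key (C.e + 2) le_rfl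
  rw [(C.Fge_top_iff x).1 hxF, sub_eq_zero] at hx
  rw [hx]
  exact hw

/-- a lift in `U` of the reduction of an element of `O(a_t)` -/
theorem Core3.INT_lift (hres : Function.Surjective resK) (U : Submodule K₀ F₀) {t : ℕ}
    (ht : t < C.e + 2) (x : C.R.O) (hx : C.R.red x ∈ redSp C.R hres U)
    (hxF : C.Fge t (x : F₀)) :
    ∃ x₁ : C.R.O, (x₁ : F₀) ∈ U ∧ C.Fge t (x₁ : F₀) ∧ C.ld t (x₁ : F₀) = C.ld t (x : F₀) := by
  obtain ⟨x₁, hx₁U, hx₁⟩ := hx
  have h0 : C.R.red (x₁ - x) = 0 := by rw [map_sub, hx₁, sub_self]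
  have h1 : C.Fge (C.e + 2) ((x₁ : F₀) - (x : F₀)) := (C.Fge_top_iff (x₁ - x)).2 h0
  have h2 : C.Fge t (x₁ : F₀) := by
    have := C.Fge_add (C.FL_Fge_mono (by omega) h1) hxF
    rwa [sub_add_cancel] at this
  exact ⟨x₁, hx₁U, h2, C.FL_ld_congr ht _ _ hx₁ h2 hxF⟩

/-- **(F)** -/
theorem Core3.V_inf_le [IsAlgClosed K] [IsAlgClosed k] (hF : IsFF K F) (hκ : IsFF k κ)
    (hres : Function.Surjective resK) :
    ∃ n₀ : ℕ, ∀ {m : ℕ} {f : C.R.O} {D : Divisor K F}, C.IsTw m f D → ∀ a b a' b' : ℕ,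
      n₀ ≤ min a a' + min b b' →
      C.V hres D a b ⊓ C.V hres D a' b' ≤ C.V hres D (min a a') (min b b') := by
  obtain ⟨n₀, hn₀⟩ := C.tight hF hκ hres
  refine ⟨n₀, ?_⟩
  intro m f D hT a b a' b' hab
  apply C.le_of_chain hres
  · apply le_inf
    · exact redSp_mono hres (C.U_mono hF D (min_le_left _ _) (min_le_left _ _))
    · exact redSp_mono hres (C.U_mono hF D (min_le_right _ _) (min_le_right _ _))
  · intro t ht x hxS hxF
    obtain ⟨x₁, h₁U, h₁F, h₁⟩ := C.INT_lift hres _ ht x hxS.1 hxF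
    obtain ⟨x₂, h₂U, h₂F, h₂⟩ := C.INT_lift hres _ ht x hxS.2 hxF
    have m₁ := C.ld_mem hF hκ hT a b t x₁ h₁U h₁F
    have m₂ := C.ld_mem hF hκ hT a' b' t x₂ h₂U h₂F
    rw [h₁] at m₁
    rw [h₂] at m₂
    have m₃ : C.ld t (x : F₀) ∈ riemannRochSpace (C.E t (min a a') (min b b')) := by
      unfold Core3.E
      rw [← EE_inf hκ]
      exact ⟨m₁, m₂⟩
    obtain ⟨s, hsU, hsF, hs⟩ := (hn₀ hT _ _ hab).1 t ht _ m₃
    exact ⟨⟨s, C.Fge_mem_O hsF⟩, ⟨⟨s, C.Fge_mem_O hsF⟩, hsU, rfl⟩, hsF, hs⟩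

theorem Core3.INT_ld_zero (t : ℕ) : C.ld t 0 = 0 := by
  have h := C.ld_sub (C.Fge_zero' t) (C.Fge_zero' t)
  rwa [sub_self, sub_self] at h

theorem Core3.INT_c_pos [IsAlgClosed k] (hκ : IsFF k κ) {t : ℕ} (ht0 : t ≠ 0)
    (ht : t < C.e + 2) : 0 < C.CNT_c t := by
  have he : (0 : ℤ) < C.e := by exact_mod_cast C.e_pos
  have hψ := C.ψ_pos
  rcases t with _ | _ | g
  · exact absurd rfl ht0
  · have h := C.CNT_c_one hκ
    have : 0 < (C.e : ℤ) * C.ψ := mul_pos he hψ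
    rw [zero_add]
    omega
  · have h := C.CNT_c_add_two hκ g
    have hg : (0 : ℤ) < 2 * ((C.e : ℤ) - g) := by
      have : (g : ℤ) < C.e := by exact_mod_cast (by omega : g < C.e)
      linarith
    have : 0 < C.ψ * (2 * ((C.e : ℤ) - g)) := mul_pos hψ hg
    show 0 < C.CNT_c (g + 2)
    omega

/-- `H⁰ = k` -/
theorem Core3.V_inf_const [IsAlgClosed K] [IsAlgClosed k] (hF : IsFF K F) (hκ : IsFF k κ)
    (hres : Function.Surjective resK) {m : ℕ} {f : C.R.O} {D : Divisor K F} (hT : C.IsTw m f D)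
    (n : ℕ) (h1 : (1 : Φ) ∈ C.V hres D n 0) (h2 : (1 : Φ) ∈ C.V hres D 0 n) :
    ∀ φ ∈ C.V hres D n 0 ⊓ C.V hres D 0 n, φ ∈ (algebraMap k Φ).range := by
  have key : C.V hres D n 0 ⊓ C.V hres D 0 n ≤ LinearMap.range (Algebra.linearMap k Φ) := by
    apply C.le_of_chain hres
    · rintro _ ⟨c, rfl⟩
      rw [Algebra.linearMap_apply, Algebra.algebraMap_eq_smul_one]
      exact Submodule.smul_mem _ _ ⟨h1, h2⟩
    · intro t ht x hxS hxF
      obtain ⟨x₁, h₁U, h₁F, h₁⟩ := C.INT_lift hres _ ht x hxS.1 hxF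
      obtain ⟨x₂, h₂U, h₂F, h₂⟩ := C.INT_lift hres _ ht x hxS.2 hxF
      have m₁ := C.ld_mem hF hκ hT n 0 t x₁ h₁U h₁F
      have m₂ := C.ld_mem hF hκ hT 0 n t x₂ h₂U h₂F
      rw [h₁] at m₁
      rw [h₂] at m₂
      have m₃ : C.ld t (x : F₀) ∈ riemannRochSpace (C.E t 0 0) := by
        have e := EE_inf hκ (C.y t) n 0 0 n (C.NN t) (C.WW t)
        rw [Nat.min_zero, Nat.zero_min] at e
        unfold Core3.E
        rw [← e]
        exact ⟨m₁, m₂⟩
      by_cases ht0 : t = 0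
      · subst ht0
        have hE : C.E 0 0 0 = 0 := by
          unfold Core3.E EE
          have hW : C.WW 0 = 0 := by unfold Core3.WW; rw [if_pos rfl]
          rw [hW]
          simp [maE, ceilDiv]
        rw [hE, mem_L_zero_iff hκ] at m₃
        obtain ⟨c, hc⟩ := m₃
        obtain ⟨c', rfl⟩ := hres c
        refine ⟨C.R.const c', ⟨resK c', by rw [C.R.red_const]; rfl⟩,
          (C.Fge_zero_iff _).2 (C.R.const c').2, ?_⟩
        rw [← hc, C.FL_ld_zero]
        have hmem := ((C.mem_O _).1 (C.R.const c').2).1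
        rw [C.v₁.lead_zero_eq hmem]
        exact C.const₁ c' hmem
      · have hdeg : Divisor.degree (C.E t 0 0) < 0 := by
          rw [C.CNT_degree_E hκ]
          have := C.INT_c_pos hκ ht0 ht
          push_cast
          linarith
        have hell := ell_eq_zero_of_degree_neg hκ hdeg
        haveI := finiteDimensional_L hκ (C.E t 0 0)
        have hbot : riemannRochSpace (C.E t 0 0) = ⊥ := Submodule.finrank_eq_zero.1 hell
        rw [hbot, Submodule.mem_bot] at m₃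
        refine ⟨0, by rw [map_zero]; exact Submodule.zero_mem _, C.Fge_zero' t, ?_⟩
        rw [m₃]
        exact C.INT_ld_zero t
  intro φ hφ
  obtain ⟨c, hc⟩ := key hφ
  exact ⟨c, hc⟩

end INT

end Fermat.Agent.S36Lib
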