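import Fermat.Agent.S36.Core.Twisted
import Fermat.Agent.S36.Core.Chain
import Fermat.Agent.S36.Core.Count

/-!
# S36, ABSTRACT CORE, (LOC): successive approximation
-/

set_option autoImplicit false

open AlgebraicCurve IntermediateField Polynomial Fermat.Agent.S24Lib Fermat.Agent.FFLib
  Fermat.Agent.S18Lib Fermat.Agent.S34Lib

namespace Fermat.Agent.S36Lib

section LOCaux

variable {k κ : Type*} [Field k] [Field κ] [Algebra k κ]

theorem LOC_ev_one_iff (P : Place k κ) (w : κ) : evP P w = 1 ↔ D2_ge P 1 (w - 1) := by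
  constructor
  · intro h
    by_cases hex : ∃ c : k, D2_ge P 1 (w - algebraMap k κ c)
    · obtain ⟨c, hc⟩ := hex
      have := evP_eq_of P hc
      rw [h] at this
      rw [← this, map_one] at hc
      exact hc
    · unfold evP at h
      rw [dif_neg hex] at h
      exact absurd h zero_ne_one
  · intro h
    apply evP_eq_of
    rwa [map_one]

theorem LOC_ge_zero_of (P : Place k κ) {w : κ} (h : D2_ge P 1 (w - 1)) : D2_ge P 0 w := by
  have h1 : D2_ge P 0 (w - 1) := D2.ge_mono P (by norm_num) h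
  have h2 : D2_ge P 0 (1 : κ) := Or.inr (by rw [P.ord_one])
  have := D2.ge_add P h1 h2
  rwa [sub_add_cancel] at this

theorem LOC_maE_zero [IsAlgClosed k] (h : IsFF k κ) (y : κ) (a b : ℕ) (P : Place k κ)
    (ha : a = 0 ∨ 0 ≤ P.ord y) (hb : b = 0 ∨ P.ord y ≤ 0) : maE k y a b P = 0 := by
  rw [maE_apply h]
  have h1 : (a : ℤ) * max (-P.ord y) 0 = 0 := by
    rcases ha with rfl | ha
    · simp
    · rw [max_eq_right (by omega), mul_zero]
  have h2 : (b : ℤ) * max (P.ord y) 0 = 0 := by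
    rcases hb with rfl | hb
    · simp
    · rw [max_eq_right hb, mul_zero]
  rw [h1, h2, add_zero]

theorem LOC_ord_smul (P : Place k κ) {c : k} (hc : c ≠ 0) (u : κ) : P.ord (c • u) = P.ord u := by
  by_cases hu : u = 0
  · rw [hu, smul_zero]
  rw [Algebra.smul_def, P.ord_mul ((_root_.map_ne_zero _).mpr hc) hu, ord_algebraMap, zero_add]

theorem LOC_Bd_at {y : κ} {a b N : ℕ} {W : Divisor k κ} {u : κ} (hB : Bd k y a b N W u)
    (P : Place k κ) (hmaE : maE k y a b P = 0) : u = 0 ∨ W P ≤ N * P.ord u := by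
  rcases hB with h0 | hB
  · exact Or.inl h0
  · right
    have := hB P
    rwa [hmaE, add_zero] at this

theorem LOC_one_sub_of_reg (P : Place k κ) {N : ℕ} {w : κ} (hw : w = 0 ∨ (0 : ℤ) ≤ N * P.ord w)
    (hN : 0 < N) : 1 - w = 0 ∨ (0 : ℤ) ≤ N * P.ord (1 - w) := by
  have hN' : (0 : ℤ) < N := by exact_mod_cast hN
  have h1 : D2_ge P 0 w := hw.imp id (fun h => by
    by_contra hcon
    have : (N : ℤ) * P.ord w < 0 := mul_neg_of_pos_of_neg hN' (by omega)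
    omega)
  have h2 : D2_ge P 0 (1 : κ) := Or.inr (by rw [P.ord_one])
  exact (D2.ge_sub P h2 h1).imp id (fun h => mul_nonneg hN'.le h)

theorem LOC_root [IsAlgClosed k] (h : IsFF k κ) (P : Place k κ) {w : κ} (hw : D2_ge P 0 w)
    (hw1 : evP P w = 1) {m : ℕ} (hm : (m : k) ≠ 0) {N : ℕ} {z : ℤ}
    (hz : w ^ m - 1 = 0 ∨ z ≤ N * P.ord (w ^ m - 1)) :
    1 - w = 0 ∨ z ≤ N * P.ord (1 - w) := by
  have e : 1 - w = -(w - 1) := by ring
  rw [e, D2.ord_neg, neg_eq_zero]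
  rcases hz with h0 | hz
  · left
    have h1 := ord_pow_sub_one h P hw hw1 hm (P.ord (w - 1) + 1) (Or.inl h0)
    rcases h1 with h1 | h1
    · exact h1
    · omega
  · have h1 := ord_pow_sub_one h P hw hw1 hm (P.ord (w ^ m - 1)) (Or.inr le_rfl)
    rcases h1 with h1 | h1
    · exact Or.inl h1
    · right
      have : (N : ℤ) * P.ord (w ^ m - 1) ≤ N * P.ord (w - 1) :=
        mul_le_mul_of_nonneg_left h1 (by positivity)
      omega

end LOCaux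

/-- `lead 0 (∑_{i<m} s^i) = m` if `s ≡ 1` -/
theorem LOC_lead_geom {F₀ κ : Type*} [Field F₀] [Field κ] (v : DVal F₀ κ) {s : F₀}
    (hs : v.ge 1 (s - 1)) (m : ℕ) :
    v.ge 0 (∑ i ∈ Finset.range m, s ^ i) ∧ v.lead 0 (∑ i ∈ Finset.range m, s ^ i) = (m : κ) := by
  obtain ⟨h0, h1⟩ := TB_lead_eq_one v hs
  have hsO : s ∈ v.O := (v.ge_zero_iff s).mp h0
  have e : ∑ i ∈ Finset.range m, s ^ i
      = ((∑ i ∈ Finset.range m, (⟨s, hsO⟩ : v.O) ^ i : v.O) : F₀) := by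
    show _ = v.O.subtype (∑ i ∈ Finset.range m, (⟨s, hsO⟩ : v.O) ^ i)
    rw [map_sum]
    rfl
  have hmem : ∑ i ∈ Finset.range m, s ^ i ∈ v.O := by
    rw [e]
    exact Subtype.property _
  refine ⟨(v.ge_zero_iff _).mpr hmem, ?_⟩
  rw [v.lead_zero_eq hmem]
  have e2 : (⟨∑ i ∈ Finset.range m, s ^ i, hmem⟩ : v.O)
      = ∑ i ∈ Finset.range m, (⟨s, hsO⟩ : v.O) ^ i := Subtype.ext e
  rw [e2, map_sum]
  rw [v.lead_zero_eq hsO] at h1
  simp only [map_pow, h1, one_pow, Finset.sum_const, Finset.card_range, nsmul_eq_mul, mul_one]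

/-- the leading term of `s ^ m f - 1`, one valuation -/
theorem LOC_lead_pow_mul_sub_one {F₀ κ : Type*} [Field F₀] [Field κ] (v : DVal F₀ κ) {s f : F₀}
    {n : ℕ} (hn : 1 ≤ n) (hs : v.ge n (s - 1)) (hf : v.ge (n + 1) (f - 1)) (m : ℕ) :
    v.ge n (s ^ m * f - 1) ∧ v.lead n (s ^ m * f - 1) = (m : κ) * v.lead n (s - 1) := by
  have hs1 : v.ge 1 (s - 1) := v.ge_mono hn hs
  have hf1 : v.ge 1 (f - 1) := v.ge_mono (by omega) hf
  obtain ⟨hG0, hG⟩ := LOC_lead_geom v hs1 m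
  obtain ⟨hf0, hfl⟩ := TB_lead_eq_one v hf1
  set G := ∑ i ∈ Finset.range m, s ^ i with hGdef
  have e : s ^ m * f - 1 = (G * f) * (s - 1) + (f - 1) := by
    have : G * (s - 1) = s ^ m - 1 := geom_sum_mul s m
    calc s ^ m * f - 1 = (s ^ m - 1) * f + (f - 1) := by ring
      _ = (G * (s - 1)) * f + (f - 1) := by rw [this]
      _ = _ := by ring
  have hGf0 := v.ge_mul hG0 hf0
  have hGfl := v.lead_mul hG0 hf0
  rw [add_zero] at hGf0 hGfl
  have h1 := v.ge_mul hGf0 hs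
  have h2 := v.lead_mul hGf0 hs
  rw [zero_add] at h1 h2
  have hfn : v.ge n (f - 1) := v.ge_succ hf
  have h3 : v.lead n (f - 1) = 0 := (v.lead_eq_zero_iff hfn).mpr hf
  rw [e]
  refine ⟨v.ge_add h1 hfn, ?_⟩
  rw [v.lead_add h1 hfn, h2, h3, add_zero, hGfl, hG, hfl, mul_one]

variable {K₀ k : Type*} [Field K₀] [Field k] {A₀ : ValuationSubring K₀} {resK : A₀ →+* k}
  {K F₀ F κ Φ : Type*} [Field K] [Field F₀] [Field F] [Field κ] [Algebra K₀ F₀] [Algebra K F]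
  [Algebra k κ] [CommRing Φ] [Algebra k Φ]

/-! ## (LOC) `S36/Core/Local*.lean` : successive approximation -/
section LOC

variable (C : Core3 A₀ resK K F₀ F κ Φ)

/-- the difference of two sections normalised on the first component -/
theorem Core3.LOC_diff [IsAlgClosed K] (hF : IsFF K F) {D : Divisor K F} (hG : C.GC D) (a b : ℕ)
    (s : F₀) (hs : s ∈ C.U D a b) (hsO : s ∈ C.R.O) (hs1 : C.v₁.lead 0 s = 1) :
    ∃ (a' : ℕ) (s' : F₀), s - s' ∈ C.U D a' b ∧ C.v₁.ge 1 (s - s') ∧ C.v₂.ge 0 (s - s') ∧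
      C.v₃.ge 0 (s - s') ∧ C.v₂.ge 0 s' ∧ C.v₃.ge 0 s' ∧
      ∀ P : Place k κ, C.Z P ≠ 0 → evP P (C.v₂.lead 0 s') = 1 ∧ evP P (C.v₃.lead 0 s') = 1 := by
  obtain ⟨n, s', hs', hsO', hs1', hev⟩ := hG
  have h := (C.mem_O s).mp hsO
  have h' := (C.mem_O s').mp hsO'
  have g1 := (C.v₁.ge_zero_iff s).mpr h.1
  have g2 := (C.v₂.ge_zero_iff s).mpr h.2.1
  have g3 := (C.v₃.ge_zero_iff s).mpr h.2.2
  have g1' := (C.v₁.ge_zero_iff s').mpr h'.1
  have g2' := (C.v₂.ge_zero_iff s').mpr h'.2.1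
  have g3' := (C.v₃.ge_zero_iff s').mpr h'.2.2
  refine ⟨max a n, s', ?_, ?_, C.v₂.ge_sub g2 g2', C.v₃.ge_sub g3 g3', g2', g3', hev⟩
  · exact (C.U D (max a n) b).sub_mem (C.U_mono hF D (le_max_left _ _) le_rfl hs)
      (C.U_mono hF D (le_max_right _ _) (Nat.zero_le _) hs')
  · rw [← C.v₁.lead_eq_zero_iff (C.v₁.ge_sub g1 g1'), C.v₁.lead_sub g1 g1', hs1, hs1', sub_self]

/-- the gluing constants do not depend on the section -/
theorem Core3.GC_apply₂ [IsAlgClosed K] [IsAlgClosed k] (hF : IsFF K F) (hκ : IsFF k κ) {m : ℕ}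
    {f : C.R.O} {D : Divisor K F} (hT : C.IsTw m f D) (hG : C.GC D) (a b : ℕ) (s : F₀)
    (hs : s ∈ C.U D a b) (hsO : s ∈ C.R.O) (hs1 : C.v₁.lead 0 s = 1) (P : Place k κ)
    (hP : C.Z P ≠ 0) (hb : b = 0 ∨ P.ord C.x₂ = 0) :
    D2_ge P 0 (C.v₂.lead 0 s) ∧ evP P (C.v₂.lead 0 s) = 1 := by
  obtain ⟨a', s', hd, d1, d2, d3, g2', g3', hev⟩ := C.LOC_diff hF hG a b s hs hsO hs1
  have hB := C.tb₂ hF hκ hT a' b 1 0 0 (s - s') hd d1 d2 d3
  have ho : 0 ≤ P.ord C.x₂ := C.Z_fin₂ P hP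
  have hmaE : maE k C.x₂ a' b P = 0 :=
    LOC_maE_zero hκ _ _ _ P (Or.inr ho) (hb.imp id (fun h => h.le))
  have hZ : 0 < C.Z P := lt_of_le_of_ne (C.Z_nonneg P) (Ne.symm hP)
  have hu : D2_ge P 1 (C.v₂.lead 0 (s - s')) := by
    rcases hB with h0 | hB
    · exact Or.inl h0
    · right
      have h1 := hB P
      rw [hmaE, add_zero, Finsupp.sub_apply, Finsupp.smul_apply, Finsupp.smul_apply] at h1
      simp only [smul_eq_mul, Nat.cast_one, Nat.cast_zero, add_zero, mul_one, zero_mul,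
        sub_zero] at h1
      have he : (0 : ℤ) < C.e := by exact_mod_cast C.e_pos
      by_contra hcon
      have h2 : P.ord (C.v₂.lead 0 (s - s')) ≤ 0 := by omega
      have h3 : (0 : ℤ) < C.e * C.Z P := mul_pos he hZ
      have h4 : (((12 * C.e : ℕ) : ℤ)) * P.ord (C.v₂.lead 0 (s - s')) ≤ 0 :=
        mul_nonpos_of_nonneg_of_nonpos (by positivity) h2
      omega
  have hw := (LOC_ev_one_iff P _).mp (hev P hP).1
  have e : C.v₂.lead 0 s - 1 = C.v₂.lead 0 (s - s') + (C.v₂.lead 0 s' - 1) := by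
    have g2 : C.v₂.ge 0 s := by
      have := C.v₂.ge_add d2 g2'
      rwa [sub_add_cancel] at this
    rw [C.v₂.lead_sub g2 g2']
    ring
  have h5 : D2_ge P 1 (C.v₂.lead 0 s - 1) := by
    rw [e]
    exact D2.ge_add P hu hw
  exact ⟨LOC_ge_zero_of P h5, (LOC_ev_one_iff P _).mpr h5⟩

theorem Core3.GC_apply₃ [IsAlgClosed K] [IsAlgClosed k] (hF : IsFF K F) (hκ : IsFF k κ) {m : ℕ}
    {f : C.R.O} {D : Divisor K F} (hT : C.IsTw m f D) (hG : C.GC D) (a b : ℕ) (s : F₀)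
    (hs : s ∈ C.U D a b) (hsO : s ∈ C.R.O) (hs1 : C.v₁.lead 0 s = 1) (P : Place k κ)
    (hP : C.Z P ≠ 0) (hb : b = 0 ∨ P.ord C.x₃ = 0) :
    D2_ge P 0 (C.v₃.lead 0 s) ∧ evP P (C.v₃.lead 0 s) = 1 := by
  obtain ⟨a', s', hd, d1, d2, d3, g2', g3', hev⟩ := C.LOC_diff hF hG a b s hs hsO hs1
  have hB := C.tb₃ hF hκ hT a' b 1 0 0 (s - s') hd d1 d2 d3
  have ho : 0 ≤ P.ord C.x₃ := C.Z_fin₃ P hP
  have hmaE : maE k C.x₃ a' b P = 0 :=
    LOC_maE_zero hκ _ _ _ P (Or.inr ho) (hb.imp id (fun h => h.le))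
  have hZ : 0 < C.Z P := lt_of_le_of_ne (C.Z_nonneg P) (Ne.symm hP)
  have hu : D2_ge P 1 (C.v₃.lead 0 (s - s')) := by
    rcases hB with h0 | hB
    · exact Or.inl h0
    · right
      have h1 := hB P
      rw [hmaE, add_zero, Finsupp.smul_apply] at h1
      simp only [smul_eq_mul, Nat.cast_one, Nat.cast_zero, zero_add, mul_zero, sub_zero,
        one_mul] at h1
      push_cast at h1
      omega
  have hw := (LOC_ev_one_iff P _).mp (hev P hP).2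
  have e : C.v₃.lead 0 s - 1 = C.v₃.lead 0 (s - s') + (C.v₃.lead 0 s' - 1) := by
    have g3 : C.v₃.ge 0 s := by
      have := C.v₃.ge_add d3 g3'
      rwa [sub_add_cancel] at this
    rw [C.v₃.lead_sub g3 g3']
    ring
  have h5 : D2_ge P 1 (C.v₃.lead 0 s - 1) := by
    rw [e]
    exact D2.ge_add P hu hw
  exact ⟨LOC_ge_zero_of P h5, (LOC_ev_one_iff P _).mpr h5⟩

/-- `f - 1 ∈ 𝔪 O` -/
theorem Core3.LOC_f {m : ℕ} {f : C.R.O} {D : Divisor K F} (hT : C.IsTw m f D) :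
    C.Fge (C.e + 2) ((f : F₀) - 1) := by
  have h1 : C.R.red (f - 1) = 0 := by rw [map_sub, hT.red_f, map_one, sub_self]
  exact (C.Fge_top_iff (f - 1)).mpr h1

/-- `s ≡ 1`, `f ≡ 1` ⟹ `s ^ m f ≡ 1` (valuation `≥ 1`) -/
theorem LOC_ge_one {F₀ κ : Type*} [Field F₀] [Field κ] (v : DVal F₀ κ) {s f : F₀}
    (hs : v.ge 1 (s - 1)) (hf : v.ge 1 (f - 1)) (m : ℕ) : v.ge 1 (s ^ m * f - 1) := by
  obtain ⟨h0, h1⟩ := TB_pow_mul v hf m 0 (TB_lead_eq_one v hs).1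
  rw [mul_zero] at h0 h1
  rw [(TB_lead_eq_one v hs).2, one_pow] at h1
  have g1 : v.ge 0 (1 : F₀) := (v.ge_zero_iff 1).mpr v.O.one_mem
  rw [← v.lead_eq_zero_iff (v.ge_sub h0 g1), v.lead_sub h0 g1, h1, v.lead_one, sub_self]

/-- the leading term of `s ^ m f - 1` -/
theorem Core3.ld_pow_mul_sub_one {m : ℕ} {f : C.R.O} {D : Divisor K F} (hT : C.IsTw m f D)
    {t : ℕ} (ht : 3 ≤ t) (ht' : t < C.e + 2) (s : F₀) (hs : C.Fge t (s - 1)) :
    C.Fge t (s ^ m * (f : F₀) - 1) ∧ C.ld t (s ^ m * (f : F₀) - 1) = (m : k) • C.ld t (s - 1) := by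
  obtain ⟨t, rfl⟩ : ∃ t', t = t' + 2 := ⟨t - 2, by omega⟩
  have hf := C.LOC_f hT
  obtain ⟨f1, f2, f3⟩ := hf
  obtain ⟨s1, s2, s3⟩ := hs
  have e1 : min (t + 2) 1 = 1 := by omega
  have e2 : t + 2 - 2 = t := by omega
  have e3 : min (t + 2 - 1) 1 = 1 := by omega
  have e4 : min (C.e + 2) 1 = 1 := by omega
  have e5 : C.e + 2 - 2 = C.e := by omega
  have e6 : min (C.e + 2 - 1) 1 = 1 := by omega
  rw [e1] at s1
  rw [e2] at s2
  rw [e3] at s3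
  rw [e4] at f1
  rw [e5] at f2
  rw [e6] at f3
  have key := LOC_lead_pow_mul_sub_one C.v₂ (n := t) (by omega) s2
    (C.v₂.ge_mono (by omega) f2) m
  refine ⟨⟨?_, ?_, ?_⟩, ?_⟩
  · rw [e1]; exact LOC_ge_one C.v₁ s1 f1 m
  · rw [e2]; exact key.1
  · rw [e3]; exact LOC_ge_one C.v₃ s3 f3 m
  · rw [C.FL_ld_add_two, C.FL_ld_add_two, key.2, Algebra.smul_def, map_natCast]

theorem Core3.LOC_tr (t : ℕ) : Transcendental k (C.y t) := by
  unfold Core3.y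
  split_ifs
  · exact C.tr₁
  · exact C.tr₃
  · exact C.tr₂

theorem Core3.LOC_NN_pos (t : ℕ) : 0 < C.NN t := by
  unfold Core3.NN
  split_ifs
  · norm_num
  · exact Nat.mul_pos (by norm_num) C.e_pos

theorem Core3.LOC_g_mem [IsAlgClosed K] (hF : IsFF K F) {m : ℕ} {f : C.R.O} {D : Divisor K F}
    (hT : C.IsTw m f D) {a b : ℕ} {s : F₀} (hs : s ∈ C.U D a b) :
    s ^ m * (f : F₀) - 1 ∈ C.U 0 (m * a) (m * b) :=
  (C.U 0 (m * a) (m * b)).sub_mem (C.pow_mul_mem_U hF hT hs) (C.one_mem_U hF _ _)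

theorem LOC_mul_or {a m : ℕ} {p : Prop} (h : a = 0 ∨ p) : m * a = 0 ∨ p :=
  h.imp (fun h => by rw [h, mul_zero]) id

theorem LOC_lead_one_sub {F₀ κ : Type*} [Field F₀] [Field κ] (v : DVal F₀ κ) {s : F₀}
    (hs : v.ge 0 (s - 1)) : v.ge 0 s ∧ v.lead 0 (1 - s) = 1 - v.lead 0 s := by
  have g1 : v.ge 0 (1 : F₀) := (v.ge_zero_iff 1).mpr v.O.one_mem
  have g2 : v.ge 0 s := by
    have := v.ge_add hs g1
    rwa [sub_add_cancel] at this
  exact ⟨g2, by rw [v.lead_sub g1 g2, v.lead_one]⟩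

theorem LOC_lead_g {F₀ κ : Type*} [Field F₀] [Field κ] (v : DVal F₀ κ) {s f : F₀}
    (hs : v.ge 0 s) (hf : v.ge 1 (f - 1)) (m : ℕ) :
    v.ge 0 (s ^ m * f - 1) ∧ v.lead 0 (s ^ m * f - 1) = v.lead 0 s ^ m - 1 := by
  obtain ⟨h0, h1⟩ := TB_pow_mul v hf m 0 hs
  rw [mul_zero] at h0 h1
  have g1 : v.ge 0 (1 : F₀) := (v.ge_zero_iff 1).mpr v.O.one_mem
  exact ⟨v.ge_sub h0 g1, by rw [v.lead_sub h0 g1, h1, v.lead_one]⟩

/-- the local conditions satisfied by the next correction term -/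
theorem Core3.LOC_claim [IsAlgClosed K] [IsAlgClosed k] (hF : IsFF K F) (hκ : IsFF k κ) {m : ℕ}
    {f : C.R.O} {D : Divisor K F} (hT : C.IsTw m f D) (hG : C.GC D) {t : ℕ} (ht : t < C.e + 2)
    (a b : ℕ) (s : F₀) (hs : s ∈ C.U D a b) (hst : C.Fge t (s - 1)) (P : Place k κ)
    (ha : a = 0 ∨ 0 ≤ P.ord (C.y t)) (hb : b = 0 ∨ P.ord (C.y t) ≤ 0) :
    C.ld t (1 - s) = 0 ∨ C.WW t P ≤ C.NN t * P.ord (C.ld t (1 - s)) := by
  have hsO : s ∈ C.R.O := by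
    have := C.R.O.add_mem (C.Fge_mem_O hst) C.R.O.one_mem
    rwa [sub_add_cancel] at this
  have hf := C.TB_f hT
  have hg := C.LOC_g_mem hF hT hs
  have hO := (C.mem_O (s - 1)).mp (C.Fge_mem_O hst)
  have z1 := LOC_lead_one_sub C.v₁ ((C.v₁.ge_zero_iff _).mpr hO.1)
  have z2 := LOC_lead_one_sub C.v₂ ((C.v₂.ge_zero_iff _).mpr hO.2.1)
  have z3 := LOC_lead_one_sub C.v₃ ((C.v₃.ge_zero_iff _).mpr hO.2.2)
  rcases t with _ | _ | _ | t
  · -- `t = 0`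
    have ey : C.y 0 = C.x₁ := by simp [Core3.y]
    have eN : C.NN 0 = 12 := by simp [Core3.NN]
    have eW : C.WW 0 = 0 := by simp [Core3.WW]
    rw [ey] at ha hb
    rw [eN, eW, C.FL_ld_zero, z1.2]
    have hB := C.tb₁ hF hκ hT a b 0 0 0 s hs z1.1 z2.1 z3.1
    have h1 := LOC_Bd_at hB P (LOC_maE_zero hκ _ _ _ P ha hb)
    have h2 : C.v₁.lead 0 s = 0 ∨ (0 : ℤ) ≤ ((12 : ℕ) : ℤ) * P.ord (C.v₁.lead 0 s) := by
      simpa using h1
    simpa using LOC_one_sub_of_reg P h2 (by norm_num)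
  · -- `t = 1`
    have ey : C.y (0 + 1) = C.x₃ := by simp [Core3.y]
    have eN : C.NN (0 + 1) = 12 := by simp [Core3.NN]
    have eW : C.WW (0 + 1) = C.Z := by simp [Core3.WW]
    rw [ey] at ha hb
    rw [eN, eW, zero_add, C.FL_ld_one, z3.2]
    have s1 : C.v₁.ge 1 (s - 1) := hst.1
    by_cases hP : C.Z P = 0
    · rw [hP]
      have hB := C.tb₃ hF hκ hT a b 0 0 0 s hs z1.1 z2.1 z3.1
      have h1 := LOC_Bd_at hB P (LOC_maE_zero hκ _ _ _ P ha hb)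
      have h2 : C.v₃.lead 0 s = 0 ∨ (0 : ℤ) ≤ ((12 : ℕ) : ℤ) * P.ord (C.v₃.lead 0 s) := by
        simpa using h1
      exact LOC_one_sub_of_reg P h2 (by norm_num)
    · have hb' : b = 0 ∨ P.ord C.x₃ = 0 :=
        hb.imp id (fun h => le_antisymm h (C.Z_fin₃ P hP))
      obtain ⟨w0, w1⟩ := C.GC_apply₃ hF hκ hT hG a b s hs hsO (TB_lead_eq_one _ s1).2 P hP hb'
      have g1 := LOC_ge_one C.v₁ s1 hf.1 m
      have g2 := LOC_lead_g C.v₂ z2.1 hf.2.1 m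
      have g3 := LOC_lead_g C.v₃ z3.1 hf.2.2 m
      have hB := C.bx₃ hF hκ (m * a) (m * b) 1 0 0 _ hg g1 g2.1 g3.1
      have h1 := LOC_Bd_at hB P (LOC_maE_zero hκ _ _ _ P (LOC_mul_or ha) (LOC_mul_or hb))
      rw [g3.2] at h1
      have h2 : C.v₃.lead 0 s ^ m - 1 = 0 ∨
          C.Z P ≤ ((12 : ℕ) : ℤ) * P.ord (C.v₃.lead 0 s ^ m - 1) := by
        simpa using h1
      exact LOC_root hκ P w0 w1 hT.m_ne h2
  · -- `t = 2`
    have ey : C.y (0 + 1 + 1) = C.x₂ := by simp [Core3.y]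
    have eN : C.NN (0 + 1 + 1) = 12 * C.e := by simp [Core3.NN]
    have eW : C.WW (0 + 1 + 1) P = 2 * (C.e : ℤ) * C.Z P := by simp [Core3.WW]
    rw [ey] at ha hb
    have eld : C.ld (0 + 1 + 1) (1 - s) = C.v₂.lead 0 (1 - s) := C.FL_ld_add_two 0 _
    rw [eN, eW, eld, z2.2]
    have s1 : C.v₁.ge 1 (s - 1) := hst.1
    have s3 : C.v₃.ge 1 (s - 1) := hst.2.2
    by_cases hP : C.Z P = 0
    · rw [hP, mul_zero]
      have hB := C.tb₂ hF hκ hT a b 0 0 0 s hs z1.1 z2.1 z3.1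
      have h1 := LOC_Bd_at hB P (LOC_maE_zero hκ _ _ _ P ha hb)
      have h2 : C.v₂.lead 0 s = 0 ∨ (0 : ℤ) ≤ ((12 * C.e : ℕ) : ℤ) * P.ord (C.v₂.lead 0 s) := by
        simpa using h1
      exact LOC_one_sub_of_reg P h2 (Nat.mul_pos (by norm_num) C.e_pos)
    · have hb' : b = 0 ∨ P.ord C.x₂ = 0 :=
        hb.imp id (fun h => le_antisymm h (C.Z_fin₂ P hP))
      obtain ⟨w0, w1⟩ := C.GC_apply₂ hF hκ hT hG a b s hs hsO (TB_lead_eq_one _ s1).2 P hP hb'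
      have g1 := LOC_ge_one C.v₁ s1 hf.1 m
      have g2 := LOC_lead_g C.v₂ z2.1 hf.2.1 m
      have g3 := LOC_ge_one C.v₃ s3 hf.2.2 m
      have hB := C.bx₂ hF hκ (m * a) (m * b) 1 0 1 _ hg g1 g2.1 g3
      have h1 := LOC_Bd_at hB P (LOC_maE_zero hκ _ _ _ P (LOC_mul_or ha) (LOC_mul_or hb))
      rw [g2.2] at h1
      have h2 : C.v₂.lead 0 s ^ m - 1 = 0 ∨
          2 * (C.e : ℤ) * C.Z P ≤ ((12 * C.e : ℕ) : ℤ) * P.ord (C.v₂.lead 0 s ^ m - 1) := by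
        rcases h1 with h1 | h1
        · exact Or.inl h1
        · right
          rw [Finsupp.sub_apply, Finsupp.smul_apply, Finsupp.smul_apply] at h1
          simp only [smul_eq_mul, Nat.cast_one, Nat.cast_zero, zero_mul, sub_zero] at h1
          calc 2 * (C.e : ℤ) * C.Z P = (C.e : ℤ) * (1 + 1) * C.Z P := by ring
            _ ≤ _ := h1
      exact LOC_root hκ P w0 w1 hT.m_ne h2
  · -- `t ≥ 3`
    have ey : C.y (t + 1 + 1 + 1) = C.x₂ := by simp [Core3.y]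
    have eN : C.NN (t + 1 + 1 + 1) = 12 * C.e := by simp [Core3.NN]
    have eW : C.WW (t + 1 + 1 + 1) P = 2 * (C.e : ℤ) * C.Z P - ((t + 1 : ℕ) : ℤ) * C.T P := by
      simp [Core3.WW]
    rw [ey] at ha hb
    obtain ⟨gF, gl⟩ := C.ld_pow_mul_sub_one hT (by omega) ht s hst
    have eld : ∀ z : F₀, C.ld (t + 1 + 1 + 1) z = C.v₂.lead (t + 1) z :=
      fun z => C.FL_ld_add_two (t + 1) z
    have e1 : C.v₂.lead (t + 1) (1 - s) = -C.v₂.lead (t + 1) (s - 1) := by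
      rw [← C.v₂.lead_neg, neg_sub]
    rw [eN, eW, eld, e1, D2.ord_neg, neg_eq_zero]
    rw [eld, eld] at gl
    have g1 : C.v₁.ge 1 (s ^ m * (f : F₀) - 1) := by
      have := gF.1
      have e : min (t + 1 + 1 + 1) 1 = 1 := by omega
      rwa [e] at this
    have g2 : C.v₂.ge (t + 1) (s ^ m * (f : F₀) - 1) := gF.2.1
    have g3 : C.v₃.ge 1 (s ^ m * (f : F₀) - 1) := by
      have := gF.2.2
      have e : min (t + 1 + 1 + 1 - 1) 1 = 1 := by omega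
      rwa [e] at this
    have hB := C.bx₂ hF hκ (m * a) (m * b) 1 (t + 1) 1 _ hg g1 g2 g3
    have h1 := LOC_Bd_at hB P (LOC_maE_zero hκ _ _ _ P (LOC_mul_or ha) (LOC_mul_or hb))
    rw [gl, LOC_ord_smul P hT.m_ne, smul_eq_zero] at h1
    rcases h1 with h1 | h1
    · exact Or.inl (h1.resolve_left hT.m_ne)
    · right
      rw [Finsupp.sub_apply, Finsupp.smul_apply, Finsupp.smul_apply] at h1
      simp only [smul_eq_mul, Nat.cast_one] at h1
      calc 2 * (C.e : ℤ) * C.Z P - ((t + 1 : ℕ) : ℤ) * C.T P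
          = (C.e : ℤ) * (1 + 1) * C.Z P - ((t + 1 : ℕ) : ℤ) * C.T P := by ring
        _ ≤ _ := h1

/-- the correction step -/
theorem Core3.LOC_step {D : Divisor K F} {t : ℕ} (ht : t < C.e + 2) {a b : ℕ} {s : F₀}
    (hs : s ∈ C.U D a b) (hst : C.Fge t (s - 1))
    (hex : ∃ s₁ : F₀, s₁ ∈ C.U D a b ∧ C.Fge t s₁ ∧ C.ld t s₁ = C.ld t (1 - s)) :
    ∃ s' : F₀, s' ∈ C.U D a b ∧ C.Fge (t + 1) (s' - 1) := by
  obtain ⟨s₁, h1, h2, h3⟩ := hex
  refine ⟨s + s₁, (C.U D a b).add_mem hs h1, ?_⟩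
  have h4 : C.Fge t (1 - s) := by
    have := C.Fge_sub (C.Fge_zero' t) hst
    rwa [zero_sub, neg_sub] at this
  have e : s + s₁ - 1 = s₁ - (1 - s) := by ring
  rw [e, ← C.ld_eq_zero_iff ht (C.Fge_sub h2 h4), C.ld_sub h2 h4, h3, sub_self]

/-- one step, chart `x ≠ ∞` -/
theorem Core3.step_pos [IsAlgClosed K] [IsAlgClosed k] (hF : IsFF K F) (hκ : IsFF k κ)
    (hres : Function.Surjective resK) {m : ℕ} {f : C.R.O} {D : Divisor K F}
    (hT : C.IsTw m f D) (hG : C.GC D) {t : ℕ} (ht : t < C.e + 2) (n : ℕ) (s : F₀)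
    (hs : s ∈ C.U D n 0) (hst : C.Fge t (s - 1)) :
    ∃ (n' : ℕ) (s' : F₀), s' ∈ C.U D n' 0 ∧ C.Fge (t + 1) (s' - 1) := by
  obtain ⟨n₀, hn₀⟩ := C.tight hF hκ hres
  obtain ⟨n₁, hn₁⟩ := exists_mem_EE_pos hκ (C.LOC_tr t) (C.LOC_NN_pos t) (C.WW t)
    (C.ld t (1 - s)) (fun P hP =>
      C.LOC_claim hF hκ hT hG ht n 0 s hs hst P (Or.inr hP) (Or.inl rfl))
  set n' := max n (max n₀ n₁) with hn'
  have hu : C.ld t (1 - s) ∈ riemannRochSpace (C.E t n' 0) :=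
    hn₁ n' ((le_max_right _ _).trans (le_max_right _ _))
  have hex := (hn₀ hT n' 0 (by
    rw [add_zero]; exact (le_max_left _ _).trans (le_max_right _ _))).1 t ht _ hu
  exact ⟨n', C.LOC_step ht (C.U_mono hF D (le_max_left _ _) le_rfl hs) hst hex⟩

/-- one step, chart `x ≠ 0` -/
theorem Core3.step_neg [IsAlgClosed K] [IsAlgClosed k] (hF : IsFF K F) (hκ : IsFF k κ)
    (hres : Function.Surjective resK) {m : ℕ} {f : C.R.O} {D : Divisor K F}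
    (hT : C.IsTw m f D) (hG : C.GC D) {t : ℕ} (ht : t < C.e + 2) (n : ℕ) (s : F₀)
    (hs : s ∈ C.U D 0 n) (hst : C.Fge t (s - 1)) :
    ∃ (n' : ℕ) (s' : F₀), s' ∈ C.U D 0 n' ∧ C.Fge (t + 1) (s' - 1) := by
  obtain ⟨n₀, hn₀⟩ := C.tight hF hκ hres
  obtain ⟨n₁, hn₁⟩ := exists_mem_EE_neg hκ (C.LOC_tr t) (C.LOC_NN_pos t) (C.WW t)
    (C.ld t (1 - s)) (fun P hP =>
      C.LOC_claim hF hκ hT hG ht 0 n s hs hst P (Or.inl rfl) (Or.inr hP))
  set n' := max n (max n₀ n₁) with hn'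
  have hu : C.ld t (1 - s) ∈ riemannRochSpace (C.E t 0 n') :=
    hn₁ n' ((le_max_right _ _).trans (le_max_right _ _))
  have hex := (hn₀ hT 0 n' (by
    rw [zero_add]; exact (le_max_left _ _).trans (le_max_right _ _))).1 t ht _ hu
  exact ⟨n', C.LOC_step ht (C.U_mono hF D le_rfl (le_max_left _ _) hs) hst hex⟩

theorem Core3.LOC_one_mem (hres : Function.Surjective resK) {U : Submodule K₀ F₀} {s : F₀}
    (hs : s ∈ U) (hst : C.Fge (C.e + 2) (s - 1)) : (1 : Φ) ∈ redSp C.R hres U := by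
  have hsO : s ∈ C.R.O := by
    have := C.R.O.add_mem (C.Fge_mem_O hst) C.R.O.one_mem
    rwa [sub_add_cancel] at this
  refine ⟨⟨s, hsO⟩, hs, ?_⟩
  have h1 : C.R.red ((⟨s, hsO⟩ : C.R.O) - 1) = 0 := (C.Fge_top_iff _).mp hst
  rw [map_sub, map_one] at h1
  exact sub_eq_zero.mp h1

theorem Core3.one_mem_V [IsAlgClosed K] [IsAlgClosed k] (hF : IsFF K F) (hκ : IsFF k κ)
    (hres : Function.Surjective resK) {m : ℕ} {f : C.R.O} {D : Divisor K F}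
    (hT : C.IsTw m f D) (hG : C.GC D) :
    ∃ n₁ : ℕ, ∀ n, n₁ ≤ n → (1 : Φ) ∈ C.V hres D n 0 ∧ (1 : Φ) ∈ C.V hres D 0 n := by
  have h0 : C.Fge 0 ((0 : F₀) - 1) := by
    rw [C.Fge_zero_iff, zero_sub]
    exact C.R.O.neg_mem C.R.O.one_mem
  have hpos : ∀ t, t ≤ C.e + 2 → ∃ (n : ℕ) (s : F₀), s ∈ C.U D n 0 ∧ C.Fge t (s - 1) := by
    intro t
    induction t with
    | zero => exact fun _ => ⟨0, 0, (C.U D 0 0).zero_mem, h0⟩
    | succ t ih =>
      intro ht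
      obtain ⟨n, s, hs, hst⟩ := ih (by omega)
      exact C.step_pos hF hκ hres hT hG (by omega) n s hs hst
  have hneg : ∀ t, t ≤ C.e + 2 → ∃ (n : ℕ) (s : F₀), s ∈ C.U D 0 n ∧ C.Fge t (s - 1) := by
    intro t
    induction t with
    | zero => exact fun _ => ⟨0, 0, (C.U D 0 0).zero_mem, h0⟩
    | succ t ih =>
      intro ht
      obtain ⟨n, s, hs, hst⟩ := ih (by omega)
      exact C.step_neg hF hκ hres hT hG (by omega) n s hs hst
  obtain ⟨n, s, hs, hst⟩ := hpos _ le_rfl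
  obtain ⟨n', s', hs', hst'⟩ := hneg _ le_rfl
  refine ⟨max n n', fun N hN => ⟨?_, ?_⟩⟩
  · exact C.LOC_one_mem hres (C.U_mono hF D ((le_max_left _ _).trans hN) le_rfl hs) hst
  · exact C.LOC_one_mem hres (C.U_mono hF D le_rfl ((le_max_right _ _).trans hN) hs') hst'

end LOC

end Fermat.Agent.S36Lib
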