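import Fermat.Agent.S36.Core.USpace
import Fermat.Agent.S36.Core.Count
import Fermat.Agent.S36.Core.Inter
import Fermat.Agent.S36.Core.Local

/-! # S36 abstract core, (RIG): rigidity -/

set_option autoImplicit false

open AlgebraicCurve IntermediateField Polynomial Fermat.Agent.S24Lib Fermat.Agent.FFLib
  Fermat.Agent.S18Lib Fermat.Agent.S34Lib

namespace Fermat.Agent.S36Lib

variable {K₀ k : Type*} [Field K₀] [Field k] {A₀ : ValuationSubring K₀} {resK : A₀ →+* k}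
  {K F₀ F κ Φ : Type*} [Field K] [Field F₀] [Field F] [Field κ] [Algebra K₀ F₀] [Algebra K F]
  [Algebra k κ] [CommRing Φ] [Algebra k Φ]

/-! ## (RIG) `S36/Core/Rigid.lean` -/
section RIG

variable (C : Core3 A₀ resK K F₀ F κ Φ)

theorem Core3.RIG_V_mono [IsAlgClosed K] (hF : IsFF K F) (hres : Function.Surjective resK)
    (D : Divisor K F) {a b a' b' : ℕ} (ha : a ≤ a') (hb : b ≤ b') :
    C.V hres D a b ≤ C.V hres D a' b' :=
  redSp_mono hres (C.U_mono hF D ha hb)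

theorem Core3.RIG_one_mem_V_zero [IsAlgClosed K] (hF : IsFF K F) (hres : Function.Surjective resK)
    (a b : ℕ) : (1 : Φ) ∈ C.V hres 0 a b :=
  ⟨1, by simpa using C.one_mem_U hF a b, map_one _⟩

/-- **(R1)** -/
theorem Core3.V_eq [IsAlgClosed K] [IsAlgClosed k] (hF : IsFF K F) (hκ : IsFF k κ)
    (hres : Function.Surjective resK) {m : ℕ} {f : C.R.O} {D : Divisor K F}
    (hT : C.IsTw m f D) (hT0 : C.IsTw m 1 0) (hG : C.GC D) :
    ∃ n₂ : ℕ, ∀ a b : ℕ, n₂ ≤ a + b → C.V hres D a b = C.V hres 0 a b := by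
  obtain ⟨n₁, h1⟩ := C.one_mem_V hF hκ hres hT hG
  obtain ⟨n₀, hinf⟩ := C.V_inf_le hF hκ hres
  obtain ⟨n₀', htight⟩ := C.tight hF hκ hres
  refine ⟨max n₀ n₀', fun a b hab => ?_⟩
  have hab0 : n₀ ≤ a + b := (le_max_left _ _).trans hab
  have hab0' : n₀' ≤ a + b := (le_max_right _ _).trans hab
  obtain ⟨⟨sp, hspU, hsp⟩, ⟨sm, hsmU, hsm⟩⟩ := h1 n₁ le_rfl
  have hle : C.V hres 0 a b ≤ C.V hres D a b := by
    rintro φ ⟨g, hgU, rfl⟩
    have e1 : C.R.red g ∈ C.V hres D (a + n₁) b := by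
      refine ⟨g * sp, ?_, by rw [map_mul, hsp, mul_one]⟩
      have := C.mul_mem_U hF hgU hspU
      rwa [zero_add, add_zero] at this
    have e2 : C.R.red g ∈ C.V hres D a (b + n₁) := by
      refine ⟨g * sm, ?_, by rw [map_mul, hsm, mul_one]⟩
      have := C.mul_mem_U hF hgU hsmU
      rwa [zero_add, add_zero] at this
    have := hinf hT (a + n₁) b a (b + n₁)
      (by rw [min_eq_right (Nat.le_add_right a n₁), min_eq_left (Nat.le_add_right b n₁)]
          exact hab0) ⟨e1, e2⟩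
    rwa [min_eq_right (Nat.le_add_right a n₁), min_eq_left (Nat.le_add_right b n₁)] at this
  have : FiniteDimensional K₀ (C.U D a b) := C.finiteDimensional_U hF D a b
  have : FiniteDimensional K₀ (C.U 0 a b) := C.finiteDimensional_U hF 0 a b
  have : FiniteDimensional k (C.V hres D a b) := finiteDimensional_redSp C.R hres (C.U D a b)
  have d1 : Module.finrank k (C.V hres D a b) = Module.finrank K₀ (C.U D a b) :=
    finrank_redSp C.R hres (C.U D a b)
  have d2 : Module.finrank k (C.V hres 0 a b) = Module.finrank K₀ (C.U 0 a b) :=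
    finrank_redSp C.R hres (C.U 0 a b)
  have d3 := (htight hT a b hab0').2
  have d4 := (htight hT0 a b hab0').2
  exact (Submodule.eq_of_le_of_finrank_eq hle (by rw [d1, d2, d3, d4])).symm

/-- **the core theorem** -/
theorem Core3.isPrincipal [IsAlgClosed K] [IsAlgClosed k] [Nontrivial Φ] (hF : IsFF K F)
    (hκ : IsFF k κ) (hres : Function.Surjective resK) {m : ℕ} {f : C.R.O} {D : Divisor K F}
    (hT : C.IsTw m f D) (hT0 : C.IsTw m 1 0) (hG : C.GC D) : Divisor.IsPrincipal D := by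
  classical
  have hm0 : 0 < m := Nat.pos_of_ne_zero (by rintro rfl; exact hT.m_ne (by simp))
  obtain ⟨n₁, h1⟩ := C.one_mem_V hF hκ hres hT hG
  obtain ⟨n₀, hinf⟩ := C.V_inf_le hF hκ hres
  obtain ⟨n₂, hVeq⟩ := C.V_eq hF hκ hres hT hT0 hG
  set n : ℕ := max n₁ (max n₀ n₂) with hn
  have hn₁ : n₁ ≤ n := le_max_left _ _
  have hn₀ : n₀ ≤ n := (le_max_left _ _).trans (le_max_right _ _)
  have hn₂ : n₂ ≤ n := (le_max_right _ _).trans (le_max_right _ _)
  have hmn : n ≤ m * n := Nat.le_mul_of_pos_left n hm0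
  by_contra hnp
  set U₁ : Submodule K₀ F₀ := C.U D n 0 with hU₁
  set U₂ : Submodule K₀ F₀ := C.U D 0 n with hU₂
  set U₁' : Submodule K₀ F₀ := C.U 0 (m * n) 0 with hU₁'
  set U₂' : Submodule K₀ F₀ := C.U 0 0 (m * n) with hU₂'
  have : FiniteDimensional K₀ U₁ := C.finiteDimensional_U hF D n 0
  have : FiniteDimensional K₀ U₂ := C.finiteDimensional_U hF D 0 n
  have : FiniteDimensional K₀ U₁' := C.finiteDimensional_U hF 0 (m * n) 0
  have : FiniteDimensional K₀ U₂' := C.finiteDimensional_U hF 0 0 (m * n)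
  have hdisj : U₁ ⊓ U₂ = ⊥ := C.U_inf_eq_bot hF hT hnp n
  obtain ⟨s₁, s₂, w, π, hs₁, hs₂, hrs₁, hrs₂, hπ0, hπ, hsw, hw⟩ :=
    exists_gapG C.R hres U₁ U₂ hdisj (h1 n hn₁).1 (h1 n hn₁).2
      (C.V_inf_const hF hκ hres hT n (h1 n hn₁).1 (h1 n hn₁).2)
  have hπK : (π : K₀) ≠ 0 := fun h => hπ0 (Subtype.ext h)
  have hswF : ((s₁ : C.R.O) : F₀) - s₂ = (π : K₀) • ((w : C.R.O) : F₀) := by
    have := congrArg (fun z : C.R.O => (z : F₀)) hsw
    simpa [Algebra.smul_def] using this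
  have hw3 : ((w : C.R.O) : F₀) ∈ C.U D n n := by
    rw [← Submodule.smul_mem_iff _ hπK, ← hswF]
    exact Submodule.sub_mem _ (C.U_mono hF D le_rfl (Nat.zero_le n) hs₁)
      (C.U_mono hF D (Nat.zero_le n) le_rfl hs₂)
  -- the `m`-th powers
  set G : C.R.O := ∑ i ∈ Finset.range m, s₁ ^ i * s₂ ^ (m - 1 - i) with hGdef
  set w' : C.R.O := w * f * G with hw'
  have hrG : C.R.red G = (m : Φ) := by
    rw [hGdef, map_sum]
    simp [hrs₁, hrs₂]
  have hrw' : C.R.red w' = (m : k) • C.R.red w := by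
    rw [hw', map_mul, map_mul, hT.red_f, hrG, mul_one, Algebra.smul_def, map_natCast, mul_comm]
  have ht : (s₁ ^ m * f - s₂ ^ m * f : C.R.O) = C.R.const π * w' := by
    have := geom_sum₂_mul s₁ s₂ m
    rw [← sub_mul, ← this, hsw, hw', ← hGdef]
    ring
  have htF : ((s₁ : C.R.O) : F₀) ^ m * f - (s₂ : F₀) ^ m * f = (π : K₀) • ((w' : C.R.O) : F₀) := by
    have := congrArg (fun z : C.R.O => (z : F₀)) ht
    simpa [Algebra.smul_def] using this
  have ht₁ : ((s₁ : C.R.O) : F₀) ^ m * f ∈ U₁' := by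
    have := C.pow_mul_mem_U hF hT hs₁
    rwa [mul_zero] at this
  have ht₂ : ((s₂ : C.R.O) : F₀) ^ m * f ∈ U₂' := by
    have := C.pow_mul_mem_U hF hT hs₂
    rwa [mul_zero] at this
  have hw'mem : ((w' : C.R.O) : F₀) ∈ U₁' ⊔ U₂' := by
    rw [← Submodule.smul_mem_iff _ hπK, ← htF]
    exact Submodule.sub_mem _ (Submodule.mem_sup_left ht₁) (Submodule.mem_sup_right ht₂)
  have hsup := redSp_sup_of_one_mem C.R hres U₁' U₂' (C.one_mem_U hF _ _) (C.one_mem_U hF _ _)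
    (C.V_inf_const hF hκ hres hT0 (m * n) (C.RIG_one_mem_V_zero hF hres _ _)
      (C.RIG_one_mem_V_zero hF hres _ _))
  have hmem : C.R.red w' ∈ redSp C.R hres U₁' ⊔ redSp C.R hres U₂' := by
    rw [← hsup]
    exact red_mem_redSp hres hw'mem
  obtain ⟨y₁, hy₁, y₂, hy₂, hy⟩ := Submodule.mem_sup.1 hmem
  have hy₁' : y₁ ∈ C.V hres 0 (m * n) 0 := hy₁
  have hy₂' : y₂ ∈ C.V hres 0 0 (m * n) := hy₂
  -- `red w ∈ V_0(n,n)`
  have hrw : C.R.red w ∈ C.V hres 0 n n := by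
    rw [← hVeq n n (by omega)]
    exact red_mem_redSp hres hw3
  have hz₁ : y₁ ∈ C.V hres D n 0 := by
    rw [hVeq n 0 (by omega)]
    have e : y₁ = (m : k) • C.R.red w - y₂ := by rw [← hrw', ← hy]; abel
    have h2 : y₁ ∈ C.V hres 0 n (m * n) := by
      rw [e]
      exact Submodule.sub_mem _
        (Submodule.smul_mem _ _ (C.RIG_V_mono hF hres 0 le_rfl hmn hrw))
        (C.RIG_V_mono hF hres 0 (Nat.zero_le n) le_rfl hy₂')
    have := hinf hT0 (m * n) 0 n (m * n)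
      (by rw [min_eq_right hmn, min_eq_left (Nat.zero_le _)]; omega) ⟨hy₁', h2⟩
    rwa [min_eq_right hmn, min_eq_left (Nat.zero_le _)] at this
  have hz₂ : y₂ ∈ C.V hres D 0 n := by
    rw [hVeq 0 n (by omega)]
    have e : y₂ = (m : k) • C.R.red w - y₁ := by rw [← hrw', ← hy]; abel
    have h2 : y₂ ∈ C.V hres 0 (m * n) n := by
      rw [e]
      exact Submodule.sub_mem _
        (Submodule.smul_mem _ _ (C.RIG_V_mono hF hres 0 hmn le_rfl hrw))
        (C.RIG_V_mono hF hres 0 le_rfl (Nat.zero_le n) hy₁')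
    have := hinf hT0 0 (m * n) (m * n) n
      (by rw [min_eq_left (Nat.zero_le _), min_eq_right hmn]; omega) ⟨hy₂', h2⟩
    rwa [min_eq_left (Nat.zero_le _), min_eq_right hmn] at this
  apply hw
  have : C.R.red w = (m : k)⁻¹ • (y₁ + y₂) := by
    rw [hy, hrw', smul_smul, inv_mul_cancel₀ hT.m_ne, one_smul]
  rw [this]
  exact Submodule.smul_mem _ _ (Submodule.add_mem _ (Submodule.mem_sup_left hz₁)
    (Submodule.mem_sup_right hz₂))

theorem Core3.exists_pow_eq [IsAlgClosed K] [IsAlgClosed k] [Nontrivial Φ] (hF : IsFF K F)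
    (hκ : IsFF k κ) (hres : Function.Surjective resK) {m : ℕ} {f : C.R.O} {D : Divisor K F}
    (hT : C.IsTw m f D) (hT0 : C.IsTw m 1 0) (hG : C.GC D) :
    ∃ g : F, C.ι (f : F₀) = g ^ m := by
  have hm0 : 0 < m := Nat.pos_of_ne_zero (by rintro rfl; exact hT.m_ne (by simp))
  obtain ⟨w0, hw0, hw⟩ := C.isPrincipal hF hκ hres hT hT0 hG
  have hf0 : C.ι (f : F₀) ≠ 0 := by
    intro h0
    have h1 : (f : F₀) = 0 := (map_eq_zero C.ι).1 h0
    have h2 : f = 0 := Subtype.ext h1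
    have h3 := hT.red_f
    rw [h2, map_zero] at h3
    exact zero_ne_one h3
  obtain ⟨a, ha⟩ : C.ι (f : F₀) * (w0 ^ m)⁻¹ ∈ (algebraMap K F).range := by
    rw [← mem_L_zero_iff hF, mem_L_iff]
    intro v
    right
    rw [v.ord_mul hf0 (inv_ne_zero (pow_ne_zero _ hw0)), v.ord_inv, ma_ord_pow, hT.div_f v, hw v]
    simp
  obtain ⟨b, hb⟩ := IsAlgClosed.exists_pow_nat_eq a hm0
  refine ⟨algebraMap K F b * w0, ?_⟩
  rw [mul_pow, ← map_pow, hb, ha, mul_assoc, inv_mul_cancel₀ (pow_ne_zero _ hw0), mul_one]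

end RIG

end Fermat.Agent.S36Lib
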