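import Fermat.Agent.S34.Defs
import Fermat.Agent.S34.RedSp
import Fermat.Agent.S34.Gap

/-!
# S36 library, ABSTRACT CORE: definitions

A function field `F₀` over a discretely valued field `(K₀, A₀)` with three discrete valuations
`v₁ v₂ v₃` (ramification `1, e, 1`), all with residue field `κ`; `Φ = O / 𝔪 O` is the coordinate
ring of the (non reduced) special fibre `C₁ + e C₂ + C₃`.

* `DVal F₀ κ`, `DVal.ge`, `DVal.lead` : a discrete valuation ring of `F₀` with uniformizer `π`,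
  residue map to `κ`; `v.ge n x : v(x) ≥ n`; `v.lead n x = red (x / π ^ n)`.
* `L0 j ι hι E` : the `K₀`-rational elements of `L(E)`.
* `Bd y a b N W u` : `N (div u + a (y)_∞ + b (y)_0) ≥ W`.
* `Core3` : the data + the bounding lemma (BL) + the numerics.
-/

set_option autoImplicit false

open AlgebraicCurve IntermediateField Polynomial Fermat.Agent.S24Lib Fermat.Agent.FFLib
  Fermat.Agent.S18Lib Fermat.Agent.S34Lib

namespace Fermat.Agent.S36Lib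

/-- a discrete valuation ring `O` of `F₀` with uniformizer `π` and residue map `red : O → κ` -/
structure DVal (F₀ κ : Type*) [Field F₀] [Field κ] where
  /-- the valuation ring -/
  O : Subring F₀
  /-- the residue map -/
  red : O →+* κ
  /-- the uniformizer -/
  π : F₀
  π_ne : π ≠ 0
  π_mem : π ∈ O
  red_eq_zero_iff : ∀ x : O, red x = 0 ↔ (x : F₀) * π⁻¹ ∈ O

section DVal

variable {F₀ κ : Type*} [Field F₀] [Field κ]

/-- `v(x) ≥ n` -/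
def DVal.ge (v : DVal F₀ κ) (n : ℕ) (x : F₀) : Prop := x * v.π⁻¹ ^ n ∈ v.O

open Classical in
/-- the leading term `red (x / π ^ n)` (junk value `0` unless `v(x) ≥ n`) -/
noncomputable def DVal.lead (v : DVal F₀ κ) (n : ℕ) (x : F₀) : κ :=
  if h : v.ge n x then v.red ⟨x * v.π⁻¹ ^ n, h⟩ else 0

theorem DVal.ge_zero' (v : DVal F₀ κ) (n : ℕ) : v.ge n 0 := by
  unfold DVal.ge
  rw [zero_mul]
  exact v.O.zero_mem

theorem DVal.ge_add (v : DVal F₀ κ) {n : ℕ} {x y : F₀} (hx : v.ge n x) (hy : v.ge n y) :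
    v.ge n (x + y) := by
  unfold DVal.ge at *
  rw [add_mul]
  exact v.O.add_mem hx hy

theorem DVal.ge_mul_left (v : DVal F₀ κ) {n : ℕ} {x y : F₀} (hx : x ∈ v.O) (hy : v.ge n y) :
    v.ge n (x * y) := by
  unfold DVal.ge at *
  rw [mul_assoc]
  exact v.O.mul_mem hx hy

end DVal

section L0

variable {K₀ K F₀ F : Type*} [Field K₀] [Field K] [Field F₀] [Field F] [Algebra K₀ F₀]
  [Algebra K F]

/-- the `K₀`-rational elements of `L(E)` -/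
def L0 (j : K₀ →+* K) (ι : F₀ →+* F)
    (hι : ∀ c : K₀, ι (algebraMap K₀ F₀ c) = algebraMap K F (j c)) (E : Divisor K F) :
    Submodule K₀ F₀ where
  carrier := {s | ι s ∈ riemannRochSpace E}
  zero_mem' := by simp
  add_mem' := by
    intro a b ha hb
    simp only [Set.mem_ofPred_eq, map_add] at *
    exact Submodule.add_mem _ ha hb
  smul_mem' := by
    intro c a ha
    simp only [Set.mem_ofPred_eq] at *
    rw [Algebra.smul_def, map_mul, hι, ← Algebra.smul_def]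
    exact Submodule.smul_mem _ _ ha

theorem mem_L0 {j : K₀ →+* K} {ι : F₀ →+* F}
    {hι : ∀ c : K₀, ι (algebraMap K₀ F₀ c) = algebraMap K F (j c)} {E : Divisor K F} {s : F₀} :
    s ∈ L0 j ι hι E ↔ ι s ∈ riemannRochSpace E := Iff.rfl

end L0

section Bd

variable {k κ : Type*} [Field k] [Field κ] [Algebra k κ]

/-- `N (div u + a (y)_∞ + b (y)_0) ≥ W` -/
def Bd (k : Type*) {κ : Type*} [Field k] [Field κ] [Algebra k κ] (y : κ) (a b N : ℕ)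
    (W : Divisor k κ) (u : κ) : Prop :=
  u = 0 ∨ ∀ P : Place k κ, W P ≤ N * (P.ord u + maE k y a b P)

/-- `⌈W / N⌉` -/
noncomputable def ceilDiv (N : ℕ) (W : Divisor k κ) : Divisor k κ :=
  W.mapRange (fun n => -((-n) / (N : ℤ))) (by simp)

/-- the largest divisor `E` with `L(E) = {u | Bd y a b N W u}` -/
noncomputable def EE (k : Type*) {κ : Type*} [Field k] [Field κ] [Algebra k κ] (y : κ) (a b N : ℕ)
    (W : Divisor k κ) : Divisor k κ :=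
  maE k y a b - ceilDiv N W

end Bd

/-- **The abstract core data.** -/
structure Core3 {K₀ k : Type*} [Field K₀] [Field k] (A₀ : ValuationSubring K₀) (resK : A₀ →+* k)
    (K F₀ F κ Φ : Type*) [Field K] [Field F₀] [Field F] [Field κ] [Algebra K₀ F₀] [Algebra K F]
    [Algebra k κ] [CommRing Φ] [Algebra k Φ] where
  /-- `K₀ → K` -/
  j : K₀ →+* K
  /-- `F₀ → F` -/
  ι : F₀ →+* F
  hι : ∀ c : K₀, ι (algebraMap K₀ F₀ c) = algebraMap K F (j c)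
  /-- `F₀` and `K` are linearly disjoint over `K₀` -/
  lin_disj : ∀ (n : ℕ) (b : Fin n → F₀), LinearIndependent K₀ b →
    LinearIndependent K (fun i => ι (b i))
  /-- the joint reduction, `Φ = O / 𝔪 O` -/
  R : RedG A₀ resK F₀ Φ
  /-- the three valuations -/
  v₁ : DVal F₀ κ
  v₂ : DVal F₀ κ
  v₃ : DVal F₀ κ
  /-- the multiplicity of the middle component -/
  e : ℕ
  e_pos : 0 < e
  mem_O : ∀ x : F₀, x ∈ R.O ↔ x ∈ v₁.O ∧ x ∈ v₂.O ∧ x ∈ v₃.O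
  red_eq_zero : ∀ x : R.O, R.red x = 0 ↔
    v₁.ge 1 (x : F₀) ∧ v₂.ge e (x : F₀) ∧ v₃.ge 1 (x : F₀)
  const₁ : ∀ (c : A₀) (h : algebraMap K₀ F₀ (c : K₀) ∈ v₁.O),
    v₁.red ⟨_, h⟩ = algebraMap k κ (resK c)
  const₂ : ∀ (c : A₀) (h : algebraMap K₀ F₀ (c : K₀) ∈ v₂.O),
    v₂.red ⟨_, h⟩ = algebraMap k κ (resK c)
  const₃ : ∀ (c : A₀) (h : algebraMap K₀ F₀ (c : K₀) ∈ v₃.O),
    v₃.red ⟨_, h⟩ = algebraMap k κ (resK c)
  /-- the function `x = j` and its three reductions -/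
  x : F₀
  x₁ : κ
  x₂ : κ
  x₃ : κ
  hx₁ : ∃ h : x ∈ v₁.O, v₁.red ⟨x, h⟩ = x₁
  hx₂ : ∃ h : x ∈ v₂.O, v₂.red ⟨x, h⟩ = x₂
  hx₃ : ∃ h : x ∈ v₃.O, v₃.red ⟨x, h⟩ = x₃
  tr₁ : Transcendental k x₁
  tr₂ : Transcendental k x₂
  tr₃ : Transcendental k x₃
  /-- the supersingular divisor (`12 ×` the supersingular points) and the correction divisor of
  the uniformizer of `v₂` -/
  Z : Divisor k κ
  T : Divisor k κ
  Z_nonneg : ∀ P, 0 ≤ Z P
  Z_fin₁ : ∀ P, Z P ≠ 0 → 0 ≤ P.ord x₁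
  Z_fin₂ : ∀ P, Z P ≠ 0 → 0 ≤ P.ord x₂
  Z_fin₃ : ∀ P, Z P ≠ 0 → 0 ≤ P.ord x₃
  /-- **(BL)** the bounding lemma, for functions with poles only at the poles of `x` -/
  bl₁ : ∀ (a α γ β : ℕ) (g : F₀), ι g ∈ riemannRochSpace (maE K (ι x) a 0) →
    v₁.ge α g → v₂.ge γ g → v₃.ge β g →
    Bd k x₁ a 0 12 ((((γ : ℤ) + β) - (e + 1) * α) • Z) (v₁.lead α g)
  bl₃ : ∀ (a α γ β : ℕ) (g : F₀), ι g ∈ riemannRochSpace (maE K (ι x) a 0) →
    v₁.ge α g → v₂.ge γ g → v₃.ge β g →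
    Bd k x₃ a 0 12 ((((γ : ℤ) + α) - (e + 1) * β) • Z) (v₃.lead β g)
  bl₂ : ∀ (a α γ β : ℕ) (g : F₀), ι g ∈ riemannRochSpace (maE K (ι x) a 0) →
    v₁.ge α g → v₂.ge γ g → v₃.ge β g →
    Bd k x₂ a 0 (12 * e) (((e : ℤ) * ((α : ℤ) + β)) • Z - (γ : ℤ) • T) (v₂.lead γ g)
  /-- numerics -/
  gF : ℤ
  ψ : ℤ
  ψ_pos : 0 < ψ
  riemann : ∀ E : Divisor K F, Divisor.degree E + 1 - gF ≤ (FFLib.ell E : ℤ)
  deg_le : (Module.finrank k⟮x₁⟯ κ : ℤ) + e * Module.finrank k⟮x₂⟯ κ + Module.finrank k⟮x₃⟯ κ ≤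
    Module.finrank K⟮ι x⟯ F
  deg_Z : (e : ℤ) * ψ ≤ Divisor.degree Z
  deg_T : Divisor.degree T ≤ 2 * e * ψ
  genus : 12 * (gF - 1) ≤ 12 * (e + 2) * ((genusR k κ : ℤ) - 1) + e * (e + 2) * ψ

section CoreDefs

variable {K₀ k : Type*} [Field K₀] [Field k] {A₀ : ValuationSubring K₀} {resK : A₀ →+* k}
  {K F₀ F κ Φ : Type*} [Field K] [Field F₀] [Field F] [Field κ] [Algebra K₀ F₀] [Algebra K F]
  [Algebra k κ] [CommRing Φ] [Algebra k Φ]

/-- `U_D(a,b) = L(D + a (x)_∞ + b (x)_0) ∩ F₀` -/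
noncomputable def Core3.U (C : Core3 A₀ resK K F₀ F κ Φ) (D : Divisor K F) (a b : ℕ) : Submodule K₀ F₀ :=
  L0 C.j C.ι C.hι (maE K (C.ι C.x) a b + D)

/-- `V_D(a,b) = red (U_D(a,b) ∩ O) ⊆ Φ` -/
noncomputable def Core3.V (C : Core3 A₀ resK K F₀ F κ Φ) (hres : Function.Surjective resK) (D : Divisor K F)
    (a b : ℕ) : Submodule k Φ :=
  redSp C.R hres (C.U D a b)

/-- the chain `(0,0,0) < (1,0,0) < (1,0,1) < (1,1,1) < ... < (1,e,1)` (order `v₁ v₂ v₃`):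
`Fge t x` says that the valuation vector of `x` is `≥` the `t`-th term, `0 ≤ t ≤ e + 2` -/
def Core3.Fge (C : Core3 A₀ resK K F₀ F κ Φ) (t : ℕ) (x : F₀) : Prop :=
  C.v₁.ge (min t 1) x ∧ C.v₂.ge (t - 2) x ∧ C.v₃.ge (min (t - 1) 1) x

theorem Core3.Fge_zero' (C : Core3 A₀ resK K F₀ F κ Φ) (t : ℕ) : C.Fge t 0 :=
  ⟨C.v₁.ge_zero' _, C.v₂.ge_zero' _, C.v₃.ge_zero' _⟩

theorem Core3.Fge_add (C : Core3 A₀ resK K F₀ F κ Φ) {t : ℕ} {x y : F₀} (hx : C.Fge t x)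
    (hy : C.Fge t y) : C.Fge t (x + y) :=
  ⟨C.v₁.ge_add hx.1 hy.1, C.v₂.ge_add hx.2.1 hy.2.1, C.v₃.ge_add hx.2.2 hy.2.2⟩

theorem Core3.Fge_mul_left (C : Core3 A₀ resK K F₀ F κ Φ) {t : ℕ} {x y : F₀} (hx : x ∈ C.R.O)
    (hy : C.Fge t y) : C.Fge t (x * y) := by
  have h := (C.mem_O x).1 hx
  exact ⟨C.v₁.ge_mul_left h.1 hy.1, C.v₂.ge_mul_left h.2.1 hy.2.1, C.v₃.ge_mul_left h.2.2 hy.2.2⟩

/-- the subspace `red (U ∩ O(a_t))` of `V(U)` -/
def Core3.VF (C : Core3 A₀ resK K F₀ F κ Φ) (hres : Function.Surjective resK)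
    (U : Submodule K₀ F₀) (t : ℕ) : Submodule k Φ where
  carrier := {φ | ∃ x : C.R.O, (x : F₀) ∈ U ∧ C.Fge t (x : F₀) ∧ C.R.red x = φ}
  zero_mem' := ⟨0, by simp, by simpa using C.Fge_zero' t, map_zero _⟩
  add_mem' := by
    rintro a b ⟨x, hx, hxt, rfl⟩ ⟨y, hy, hyt, rfl⟩
    exact ⟨x + y, by simpa using U.add_mem hx hy, by simpa using C.Fge_add hxt hyt, map_add _ _ _⟩
  smul_mem' := by
    rintro c a ⟨x, hx, hxt, rfl⟩
    obtain ⟨c', rfl⟩ := hres c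
    refine ⟨C.R.const c' * x, ?_, ?_, ?_⟩
    · have := U.smul_mem (c' : K₀) hx
      rwa [Algebra.smul_def] at this
    · exact C.Fge_mul_left (C.R.const c').2 hxt
    · rw [map_mul, C.R.red_const, Algebra.smul_def]

theorem Core3.mem_VF {C : Core3 A₀ resK K F₀ F κ Φ} {hres : Function.Surjective resK}
    {U : Submodule K₀ F₀} {t : ℕ} {φ : Φ} :
    φ ∈ C.VF hres U t ↔ ∃ x : C.R.O, (x : F₀) ∈ U ∧ C.Fge t (x : F₀) ∧ C.R.red x = φ := Iff.rfl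

/-- the leading term at the `t`-th step of the chain -/
noncomputable def Core3.ld (C : Core3 A₀ resK K F₀ F κ Φ) (t : ℕ) (x : F₀) : κ :=
  if t = 0 then C.v₁.lead 0 x else if t = 1 then C.v₃.lead 0 x else C.v₂.lead (t - 2) x

/-- the reduction of `x` on the component of the `t`-th step -/
def Core3.y (C : Core3 A₀ resK K F₀ F κ Φ) (t : ℕ) : κ :=
  if t = 0 then C.x₁ else if t = 1 then C.x₃ else C.x₂

/-- the denominator of the `t`-th bound -/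
def Core3.NN (C : Core3 A₀ resK K F₀ F κ Φ) (t : ℕ) : ℕ := if t ≤ 1 then 12 else 12 * C.e

/-- the numerator of the `t`-th bound -/
noncomputable def Core3.WW (C : Core3 A₀ resK K F₀ F κ Φ) (t : ℕ) : Divisor k κ :=
  if t = 0 then 0 else if t = 1 then C.Z else (2 * (C.e : ℤ)) • C.Z - ((t - 2 : ℕ) : ℤ) • C.T

/-- the divisor of the `t`-th bound -/
noncomputable def Core3.E (C : Core3 A₀ resK K F₀ F κ Φ) (t a b : ℕ) : Divisor k κ :=
  EE k (C.y t) a b (C.NN t) (C.WW t)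

/-- a Kummer datum normalised modulo `𝔪 O`: `f ≡ 1`, `div f = m D`, `D` rational -/
structure Core3.IsTw (C : Core3 A₀ resK K F₀ F κ Φ) (m : ℕ) (f : C.R.O) (D : Divisor K F) :
    Prop where
  m_ne : (m : k) ≠ 0
  red_f : C.R.red f = 1
  div_f : ∀ v : Place K F, v.ord (C.ι (f : F₀)) = m * D v
  rat : ∀ a b : ℕ, FFLib.ell (maE K (C.ι C.x) a b + D) ≤ Module.finrank K₀ (C.U D a b)

/-- the gluing constants of `D` are trivial -/
def Core3.GC (C : Core3 A₀ resK K F₀ F κ Φ) (D : Divisor K F) : Prop :=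
  ∃ (n : ℕ) (s : F₀), s ∈ C.U D n 0 ∧ s ∈ C.R.O ∧ C.v₁.lead 0 s = 1 ∧
    ∀ P : Place k κ, C.Z P ≠ 0 → evP P (C.v₂.lead 0 s) = 1 ∧ evP P (C.v₃.lead 0 s) = 1

end CoreDefs

end Fermat.Agent.S36Lib
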